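import Fermat.Agent.NumC.Loc

/-!
# A special complete intersection, IV: comparison with a quotient acting on a module
-/

set_option autoImplicit false

noncomputable section

namespace Fermat.Agent.NumC

open MvPolynomial IsLocalRing

variable {ι : Type*} {O : Type*} [CommRing O] [Fintype ι] [DecidableEq ι]

namespace SC

variable (S : SC ι O) [IsLocalRing O]

theorem mem_Ja_iff {ϖ : O} (hϖ : maximalIdeal O = Ideal.span {ϖ}) {z : MvPolynomial ι O} :
    z ∈ S.Ja (maximalIdeal O) ↔ ∃ w, z - C ϖ * w ∈ S.J := by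
  unfold Ja
  rw [hϖ, Ideal.map_span, Set.image_singleton]
  constructor
  · intro h
    obtain ⟨x, hx, y, hy, rfl⟩ := Submodule.mem_sup.1 h
    obtain ⟨w, rfl⟩ := Ideal.mem_span_singleton'.1 hy
    exact ⟨w, by rw [mul_comm, add_sub_cancel_right]; exact hx⟩
  · rintro ⟨w, hw⟩
    have : z = (z - C ϖ * w) + C ϖ * w := by ring
    rw [this]
    exact add_mem (Ideal.mem_sup_left hw) (Ideal.mem_sup_right
      (Ideal.mul_mem_right _ _ (Ideal.mem_span_singleton_self _)))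

variable {T : Type*} [CommRing T] [Algebra O T] {a : ι → T}

omit [IsLocalRing O] in
theorem aeval_J (hfa : ∀ i, aeval a (S.f i) = 0) {z : MvPolynomial ι O} (hz : z ∈ S.J) :
    aeval a z = 0 := by
  obtain ⟨c, rfl⟩ := Ideal.mem_span_range_iff_exists_fun.1 (show z ∈ Ideal.span (Set.range S.f)
    from hz)
  rw [map_sum]
  exact Finset.sum_eq_zero fun i _ => by rw [map_mul, hfa, mul_zero]

variable {H : Type*} [AddCommGroup H] [Module O H] [Module T H] [IsScalarTower O T H]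

theorem mem_Z_of_act (hfa : ∀ i, aeval a (S.f i) = 0) {ϖ : O}
    (hϖ : maximalIdeal O = Ideal.span {ϖ}) {x : H}
    (hx : ¬ ∃ y : H, aeval a S.D • x = ϖ • y) {z : MvPolynomial ι O}
    (hz : ∃ y : H, aeval a z • x = ϖ • y) : z ∈ S.Z := by
  by_contra h
  obtain ⟨g, u, hu, hg⟩ := S.exists_socle h
  obtain ⟨w, hw⟩ := (S.mem_Ja_iff hϖ).1 hg
  have h1 := S.aeval_J hfa hw
  rw [map_sub, map_sub, map_mul, map_mul, map_mul, aeval_C, aeval_C, sub_sub, sub_eq_zero] at h1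
  obtain ⟨y, hy⟩ := hz
  obtain ⟨v, rfl⟩ := hu
  apply hx
  refine ⟨(↑v⁻¹ : O) • (aeval a g • y - aeval a w • x), ?_⟩
  have h2 : (aeval a g * aeval a z) • x =
    (algebraMap O T (v : O) * aeval a S.D + algebraMap O T ϖ * aeval a w) • x := by rw [h1]
  rw [mul_smul, hy, add_smul, mul_smul, mul_smul, algebraMap_smul, algebraMap_smul,
    smul_comm (aeval a g) ϖ y] at h2
  have h3 : (v : O) • aeval a S.D • x = ϖ • (aeval a g • y - aeval a w • x) := by
    rw [smul_sub, h2, add_sub_cancel_right]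
  rw [smul_comm ϖ, ← h3, smul_smul, Units.inv_mul, one_smul]

theorem exists_unit_ker [IsNoetherianRing O] {ϖ : O}
    (hϖ : maximalIdeal O = Ideal.span {ϖ}) (hfa : ∀ i, aeval a (S.f i) = 0)
    (htf : ∀ t : T, algebraMap O T ϖ * t = 0 → t = 0)
    (hC : ∀ z : MvPolynomial ι O, aeval a z = 0 → z ∈ S.Z) :
    ∃ r : MvPolynomial ι O, coeff 0 r = 1 ∧ ∀ z : MvPolynomial ι O, aeval a z = 0 →
      r * z ∈ S.J := by
  obtain ⟨𝔛, h𝔛⟩ : ∃ 𝔛, 𝔛 = Ideal.span (Set.range (X : ι → MvPolynomial ι O)) := ⟨_, rfl⟩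
  obtain ⟨mk, hmk⟩ : ∃ mk, mk = Ideal.Quotient.mk S.J := ⟨_, rfl⟩
  have hsurj : Function.Surjective mk := by rw [hmk]; exact Ideal.Quotient.mk_surjective
  obtain ⟨𝔫, h𝔫⟩ : ∃ 𝔫, 𝔫 = RingHom.ker (aeval a : MvPolynomial ι O →ₐ[O] T) := ⟨_, rfl⟩
  obtain ⟨𝔐, h𝔐⟩ : ∃ 𝔐, 𝔐 = 𝔛 ⊔ (maximalIdeal O).map C := ⟨_, rfl⟩
  have hfg : (𝔫.map mk).FG := Ideal.FG.map (IsNoetherian.noetherian 𝔫) _
  have hle : 𝔫.map mk ≤ (𝔐.map mk) • (𝔫.map mk) := by
    rw [Ideal.map_le_iff_le_comap]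
    intro z hz
    rw [h𝔫, RingHom.mem_ker] at hz
    obtain ⟨s, hs, hsz⟩ := hC z hz
    obtain ⟨w, hw⟩ := (S.mem_Ja_iff hϖ).1 hsz
    have h1 := S.aeval_J hfa hw
    rw [map_sub, map_mul, map_mul, hz, mul_zero, zero_sub, neg_eq_zero, aeval_C] at h1
    have hw2 : aeval a w = 0 := htf _ h1
    have e1 : mk (s * z) = mk (C ϖ * w) := by
      rw [hmk, Ideal.Quotient.eq]
      exact hw
    have e2 : mk z = mk (C ϖ * w) + mk ((1 - s) * z) := by
      rw [← e1, ← map_add]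
      congr 1
      ring
    rw [Ideal.mem_comap, e2, map_mul, map_mul, smul_eq_mul]
    refine add_mem (Ideal.mul_mem_mul ?_ ?_) (Ideal.mul_mem_mul ?_ ?_)
    · refine Ideal.mem_map_of_mem mk ?_
      rw [h𝔐, hϖ]
      exact Ideal.mem_sup_right (Ideal.mem_map_of_mem C (Ideal.mem_span_singleton_self _))
    · exact Ideal.mem_map_of_mem mk (by rw [h𝔫, RingHom.mem_ker]; exact hw2)
    · refine Ideal.mem_map_of_mem mk ?_
      rw [h𝔐, h𝔛]
      refine Ideal.mem_sup_left (mem_of_coeff_zero ?_)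
      rw [coeff_sub, coeff_zero_one, hs, sub_self]
    · exact Ideal.mem_map_of_mem mk (by rw [h𝔫, RingHom.mem_ker]; exact hz)
  obtain ⟨r, hr, hrN⟩ := Submodule.exists_sub_one_mem_and_smul_eq_zero_of_fg_of_le_smul
    _ _ hfg hle
  obtain ⟨x, hx, hxr⟩ := (Ideal.mem_map_iff_of_surjective mk hsurj).1 hr
  have hx0 : coeff 0 x ∈ maximalIdeal O := by
    rw [h𝔐] at hx
    obtain ⟨y, hy, c, hc, rfl⟩ := Submodule.mem_sup.1 hx
    rw [coeff_add, coeff_zero_of_mem (h𝔛 ▸ hy), zero_add]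
    exact mem_map_C_iff.1 hc 0
  have hu : IsUnit (1 + coeff 0 x) := by
    by_contra h
    have h2 := (maximalIdeal O).sub_mem ((mem_maximalIdeal _).2 h) hx0
    rw [add_sub_cancel_right] at h2
    exact (Ideal.ne_top_iff_one _).1 (maximalIdeal.isMaximal O).ne_top h2
  obtain ⟨u, hu⟩ := hu
  refine ⟨C (↑u⁻¹ : O) * (1 + x), ?_, fun z hz => ?_⟩
  · rw [coeff_zero_mul, coeff_add, coeff_zero_one, coeff_zero_C, ← hu, Units.inv_mul]
  · rw [mul_assoc]
    refine Ideal.mul_mem_left _ _ ?_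
    rw [← Ideal.Quotient.eq_zero_iff_mem, ← hmk, map_mul, map_add, map_one, hxr, add_sub_cancel]
    exact hrN _ (Ideal.mem_map_of_mem mk (by rw [h𝔫, RingHom.mem_ker]; exact hz))

end SC

end Fermat.Agent.NumC
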