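import Fermat.Agent.RT.NumSt

/-!
# The Gram determinant of the `π`-part
-/

set_option autoImplicit false

noncomputable section

namespace Fermat.Agent.RT

open IsDiscreteValuationRing

section Dual

variable {O : Type} [CommRing O] [IsDomain O] [IsPrincipalIdealRing O] {R : Type} [CommRing R]
  [Algebra O R] {π : R →ₐ[O] O} {H : Type} [AddCommGroup H] [Module O H] [Module.Finite O H]
  [Module.Free O H] [Module R H] [IsScalarTower O R H] {d : ℕ} (C : CongData O R π H d)

include C in
/-- functionals dual to the basis `e` -/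
theorem CongData.exists_functional : ∃ ℓ : Fin d → H →ₗ[O] O,
    ∀ i j, ℓ i (C.e j) = if i = j then 1 else 0 := by
  classical
  obtain ⟨W, hW⟩ : ∃ W, W = Submodule.span O (Set.range C.e) := ⟨_, rfl⟩
  have hmem : ∀ x, x ∈ W ↔ ∀ r : R, π r = 0 → r • x = 0 := by rw [hW]; exact C.mem_span
  haveI : Module.IsTorsionFree O (H ⧸ W) := by
    refine Module.isTorsionFree_iff_smul_eq_zero.2 ?_
    intro c x hcx
    obtain ⟨x, rfl⟩ := Submodule.Quotient.mk_surjective W x
    rw [← Submodule.Quotient.mk_smul, Submodule.Quotient.mk_eq_zero, hmem] at hcx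
    by_cases hc : c = 0
    · exact Or.inl hc
    · refine Or.inr ((Submodule.Quotient.mk_eq_zero _).2 ((hmem x).2 fun r hr => ?_))
      have h1 := hcx r hr
      rw [smul_comm] at h1
      exact (smul_eq_zero.1 h1).resolve_left hc
  haveI : Module.Free O (H ⧸ W) := Module.free_of_finite_type_torsion_free'
  obtain ⟨h, hh⟩ := Module.projective_lifting_property W.mkQ LinearMap.id W.mkQ_surjective
  have hρ : ∀ x, x - h (W.mkQ x) ∈ Submodule.span O (Set.range C.e) := by
    intro x
    rw [← hW, ← Submodule.Quotient.mk_eq_zero, ← Submodule.mkQ_apply, map_sub, sub_eq_zero]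
    exact (LinearMap.congr_fun hh (W.mkQ x)).symm
  let ρ : H →ₗ[O] Submodule.span O (Set.range C.e) :=
    LinearMap.codRestrict _ (LinearMap.id - h ∘ₗ W.mkQ) hρ
  refine ⟨fun i => (Module.Basis.span C.indep).coord i ∘ₗ ρ, fun i j => ?_⟩
  have hρe : ρ (C.e j) = Module.Basis.span C.indep j := by
    apply Subtype.ext
    rw [Module.Basis.span_apply]
    change C.e j - h (W.mkQ (C.e j)) = C.e j
    have : W.mkQ (C.e j) = 0 := by
      rw [Submodule.mkQ_apply, Submodule.Quotient.mk_eq_zero, hW]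
      exact Submodule.subset_span ⟨j, rfl⟩
    rw [this, map_zero, sub_zero]
  rw [LinearMap.comp_apply, hρe, Module.Basis.coord_apply, Module.Basis.repr_self,
    Finsupp.single_apply]
  simp only [eq_comm]

/-- the Gram matrix -/
def CongData.G : Matrix (Fin d) (Fin d) O := Matrix.of fun i j => C.B (C.e i) (C.e j)

omit [IsPrincipalIdealRing O] [Module.Finite O H] [Module.Free O H] [IsScalarTower O R H] in
theorem CongData.det_G : C.G.det = C.gram := rfl

/-- the matrix of multiplication by an element killed by the augmentation ideal -/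
theorem CongData.exists_matrix {δ : R} (hδ : ∀ r : R, π r = 0 → ∀ x : H, r • δ • x = 0) :
    ∃ (x : Fin d → H) (M : Matrix (Fin d) (Fin d) O) (ℓ : Fin d → H →ₗ[O] O),
      (∀ i j, ℓ i (C.e j) = if i = j then 1 else 0) ∧ (∀ i j, ℓ j (δ • x i) = M i j) ∧
      (∀ h : H, δ • h = ∑ j, ℓ j (δ • h) • C.e j) ∧
      (∀ i j, C.B (x i) (C.e j) = if i = j then 1 else 0) ∧ M * C.G = π δ • 1 := by
  classical
  obtain ⟨ℓ, hℓ⟩ := C.exists_functional
  choose x hx using fun i => C.perfect (ℓ i)
  have hexp : ∀ h : H, δ • h = ∑ j, ℓ j (δ • h) • C.e j := by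
    intro h
    have h1 : δ • h ∈ Submodule.span O (Set.range C.e) := (C.mem_span _).2 fun r hr => hδ r hr h
    obtain ⟨c, hc⟩ := (Submodule.mem_span_range_iff_exists_fun O).1 h1
    rw [← hc]
    refine Finset.sum_congr rfl fun j _ => ?_
    congr 1
    rw [map_sum, Finset.sum_eq_single j]
    · rw [map_smul, hℓ, if_pos rfl, smul_eq_mul, mul_one]
    · intro i _ hij
      rw [map_smul, hℓ, if_neg (Ne.symm hij), smul_zero]
    · intro h
      exact absurd (Finset.mem_univ j) h
  have hδe : ∀ j, δ • C.e j = π δ • C.e j := by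
    intro j
    have h1 := (C.mem_span (C.e j)).1 (Submodule.subset_span ⟨j, rfl⟩)
      (δ - algebraMap O R (π δ)) (by rw [map_sub, AlgHom.commutes]; exact sub_self _)
    rwa [sub_smul, algebraMap_smul, sub_eq_zero] at h1
  refine ⟨x, Matrix.of fun i j => ℓ j (δ • x i), ℓ, hℓ, fun _ _ => rfl, hexp,
    fun i j => by rw [hx, hℓ], ?_⟩
  ext i k
  rw [Matrix.mul_apply, Matrix.smul_apply, Matrix.one_apply]
  have h1 : C.B (δ • x i) (C.e k) = π δ • (if i = k then 1 else 0) := by
    rw [C.adj, hδe, map_smul, hx, hℓ]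
  rw [← h1, hexp (x i), map_sum, LinearMap.sum_apply]
  refine Finset.sum_congr rfl fun j _ => ?_
  rw [map_smul, LinearMap.smul_apply, smul_eq_mul]
  rfl

end Dual

variable {O : Type} [CommRing O] [IsDomain O] [IsDiscreteValuationRing O] {R : Type} [CommRing R]
  [Algebra O R] {π : R →ₐ[O] O} {H : Type} [AddCommGroup H] [Module O H] [Module.Finite O H]
  [Module.Free O H] [Module R H] [IsScalarTower O R H] {d : ℕ} (C : CongData O R π H d)

theorem CongData.val_le {δ : R} (hδ : ∀ r : R, π r = 0 → ∀ x : H, r • δ • x = 0) :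
    addVal O C.gram ≤ d * addVal O (π δ) := by
  obtain ⟨x, M, ℓ, hℓ, hM, hexp, hx, hMG⟩ := C.exists_matrix hδ
  have h1 := congrArg Matrix.det hMG
  rw [Matrix.det_mul, Matrix.det_smul, Matrix.det_one, mul_one, Fintype.card_fin, C.det_G] at h1
  have h2 := congrArg (addVal O) h1
  rw [addVal_mul, addVal_pow, nsmul_eq_mul] at h2
  rw [← h2]
  exact le_add_self

/-- the key consequence of the numerical hypothesis -/
theorem CongData.exists_not_dvd {δ : R} (hδ : ∀ r : R, π r = 0 → ∀ x : H, r • δ • x = 0)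
    (h0 : π δ ≠ 0) (hd : 0 < d) (hval : d * addVal O (π δ) ≤ addVal O C.gram)
    {ϖ : O} (hϖ : IsLocalRing.maximalIdeal O = Ideal.span {ϖ}) :
    ∃ x : H, ¬ ∃ y : H, δ • x = ϖ • y := by
  obtain ⟨x, M, ℓ, hℓ, hM, hexp, hx, hMG⟩ := C.exists_matrix hδ
  have h1 := congrArg Matrix.det hMG
  rw [Matrix.det_mul, Matrix.det_smul, Matrix.det_one, mul_one, Fintype.card_fin, C.det_G] at h1
  have h2 := congrArg (addVal O) h1
  rw [addVal_mul, addVal_pow, nsmul_eq_mul] at h2
  have hfin : (d : ℕ∞) * addVal O (π δ) ≠ ⊤ := by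
    rw [← nsmul_eq_mul, ← addVal_pow, Ne, addVal_eq_top_iff]
    exact pow_ne_zero _ h0
  have h3 : addVal O M.det = 0 := by
    have h4 : addVal O M.det + (d : ℕ∞) * addVal O (π δ) ≤ 0 + (d : ℕ∞) * addVal O (π δ) := by
      rw [zero_add]
      calc _ ≤ addVal O M.det + addVal O C.gram := by gcongr
        _ = _ := h2
    exact le_antisymm ((ENat.add_le_add_iff_right hfin).1 h4) zero_le
  have hu : IsUnit M.det := addVal_eq_zero_iff.1 h3
  refine ⟨x ⟨0, hd⟩, ?_⟩
  rintro ⟨y, hy⟩
  have h5 : ∀ j, M ⟨0, hd⟩ j ∈ IsLocalRing.maximalIdeal O := by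
    intro j
    rw [← hM, hy, map_smul, hϖ]
    exact Ideal.mul_mem_right _ _ (Ideal.mem_span_singleton_self _)
  have h6 : M.det ∈ IsLocalRing.maximalIdeal O := by
    rw [Matrix.det_apply']
    refine sum_mem fun σ _ => Ideal.mul_mem_left _ _ ?_
    rw [← Finset.mul_prod_erase _ _ (Finset.mem_univ (σ.symm ⟨0, hd⟩)), Equiv.apply_symm_apply]
    exact Ideal.mul_mem_right _ _ (h5 _)
  exact (IsLocalRing.mem_maximalIdeal _).1 h6 hu

/-- the case where multiplication by `δ` is onto the `π`-part -/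
theorem CongData.val_eq {δ : R} (hδ : ∀ r : R, π r = 0 → ∀ x : H, r • δ • x = 0)
    (h0 : π δ ≠ 0) (hsurj : ∀ j, ∃ h : H, δ • h = C.e j) :
    addVal O C.gram = d * addVal O (π δ) := by
  obtain ⟨x, M, ℓ, hℓ, hM, hexp, hx, hMG⟩ := C.exists_matrix hδ
  choose h hh using hsurj
  have hδe : ∀ j, δ • C.e j = π δ • C.e j := by
    intro j
    have h1 := (C.mem_span (C.e j)).1 (Submodule.subset_span ⟨j, rfl⟩)
      (δ - algebraMap O R (π δ)) (by rw [map_sub, AlgHom.commutes]; exact sub_self _)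
    rwa [sub_smul, algebraMap_smul, sub_eq_zero] at h1
  obtain ⟨N, hN⟩ : ∃ N : Matrix (Fin d) (Fin d) O, N = Matrix.of fun i j => C.B (h i) (C.e j) :=
    ⟨_, rfl⟩
  have hGN : C.G = π δ • N := by
    ext i j
    rw [Matrix.smul_apply, hN]
    change C.B (C.e i) (C.e j) = π δ • C.B (h i) (C.e j)
    rw [← hh i, C.adj, hδe, map_smul]
  have hMN : M * N = 1 := by
    have h1 : π δ • (M * N) = π δ • (1 : Matrix (Fin d) (Fin d) O) := by
      rw [← Matrix.mul_smul, ← hGN, hMG]
    ext i j
    have h2 := congrFun (congrFun h1 i) j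
    rw [Matrix.smul_apply, Matrix.smul_apply, smul_eq_mul, smul_eq_mul] at h2
    exact mul_left_cancel₀ h0 h2
  have hNu : IsUnit N.det := by
    have := congrArg Matrix.det hMN
    rw [Matrix.det_mul, Matrix.det_one] at this
    exact IsUnit.of_mul_eq_one _ (by rw [mul_comm]; exact this)
  rw [← C.det_G, hGN, Matrix.det_smul, Fintype.card_fin, addVal_mul, addVal_pow, nsmul_eq_mul,
    addVal_eq_zero_iff.2 hNu, add_zero]

end Fermat.Agent.RT
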