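import Fermat.Agent.NumC.Act

/-!
# Isomorphism on cotangent spaces and complete intersections
-/

set_option autoImplicit false

noncomputable section

namespace Fermat.Agent.NumC

open MvPolynomial

variable {ι : Type*} {O : Type*} [CommRing O] [Fintype ι] [DecidableEq ι]

/-- the coefficient of `X j` -/
def lin (j : ι) (g : MvPolynomial ι O) : O := constantCoeff (pderiv j g)

theorem lin_mul (j : ι) (g h : MvPolynomial ι O) :
    lin j (g * h) = constantCoeff g * lin j h + constantCoeff h * lin j g := by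
  unfold lin
  rw [Derivation.leibniz, map_add, smul_eq_mul, smul_eq_mul, map_mul, map_mul]

theorem lin_sum (j : ι) {κ : Type*} (s : Finset κ) (g : κ → MvPolynomial ι O) :
    lin j (∑ i ∈ s, g i) = ∑ i ∈ s, lin j (g i) := by
  unfold lin
  rw [map_sum, map_sum]

theorem lin_X (i j : ι) : lin j (X i : MvPolynomial ι O) = if i = j then 1 else 0 := by
  unfold lin
  rw [pderiv_X, Pi.single_apply]
  split_ifs with h
  · rw [map_one]
  · rw [map_zero]

theorem lin_row (j : ι) (g : ι → MvPolynomial ι O) :
    lin j (∑ i, g i * X i) = constantCoeff (g j) := by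
  rw [lin_sum, Finset.sum_eq_single j]
  · rw [lin_mul, lin_X, if_pos rfl, mul_one, constantCoeff_X, zero_mul, add_zero]
  · intro i _ hij
    rw [lin_mul, lin_X, if_neg hij, mul_zero, constantCoeff_X, zero_mul, add_zero]
  · intro h
    exact absurd (Finset.mem_univ j) h

theorem aeval_mem_of_pow {R : Type*} [CommRing R] [Algebra O R] (y : ι → R) {k : ℕ}
    {h : MvPolynomial ι O}
    (hh : h ∈ Ideal.span (Set.range (X : ι → MvPolynomial ι O)) ^ k) :
    aeval y h ∈ Ideal.span (Set.range y) ^ k := by
  have h1 : (Ideal.span (Set.range (X : ι → MvPolynomial ι O))).map (aeval y) =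
      Ideal.span (Set.range y) := by
    rw [Ideal.map_span, ← Set.range_comp]
    congr 2
    funext i
    exact aeval_X y i
  rw [← h1, ← Ideal.map_pow]
  exact Ideal.mem_map_of_mem _ hh

set_option maxHeartbeats 1000000 in
theorem lift_bot [IsDomain O] {R : Type*} [CommRing R] [IsLocalRing R] [IsNoetherianRing R]
    [Algebra O R] (π : R →ₐ[O] O) (I : Ideal R) (S : SC ι O) (y : ι → R)
    (hy : ∀ i, π (y i) = 0) (hf : ∀ i, aeval y (S.f i) ∈ I)
    (hsurj : ∀ r : R, ∃ g : MvPolynomial ι O, r - aeval y g ∈ I)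
    (hC : ∀ g : MvPolynomial ι O, aeval y g ∈ I →
      ∃ s : MvPolynomial ι O, coeff 0 s = 1 ∧ s * g ∈ S.J)
    (hI2 : I ≤ RingHom.ker π * RingHom.ker π) (hdet : coeff 0 S.D ≠ 0) : I = ⊥ := by
  obtain ⟨p, hp⟩ : ∃ p, p = RingHom.ker π := ⟨_, rfl⟩
  obtain ⟨Y, hY⟩ : ∃ Y, Y = Ideal.span (Set.range y) := ⟨_, rfl⟩
  obtain ⟨𝔛, h𝔛⟩ : ∃ 𝔛, 𝔛 = Ideal.span (Set.range (X : ι → MvPolynomial ι O)) := ⟨_, rfl⟩
  rw [← hp] at hI2
  have hmemp : ∀ r, r ∈ p ↔ π r = 0 := fun r => by rw [hp, RingHom.mem_ker]
  have hIp : I ≤ p := hI2.trans Ideal.mul_le_left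
  have haev : ∀ g : MvPolynomial ι O, π (aeval y g) = coeff 0 g := by
    intro g
    have h1 : (π.comp (aeval y) : MvPolynomial ι O →ₐ[O] O) = aeval (fun _ => (0 : O)) := by
      ext i
      rw [AlgHom.comp_apply, aeval_X, aeval_X, hy]
    have h2 := DFunLike.congr_fun h1 g
    rw [AlgHom.comp_apply] at h2
    rw [h2]
    have h3 := MvPolynomial.aeval_zero (S₁ := O) g
    rw [← constantCoeff_eq]
    exact h3
  have hpj : p ≤ (⊥ : Ideal R).jacobson := by
    rw [IsLocalRing.jacobson_eq_maximalIdeal ⊥ bot_ne_top]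
    refine IsLocalRing.le_maximalIdeal ?_
    rw [Ne, Ideal.eq_top_iff_one, hmemp, map_one]
    exact one_ne_zero
  have hYp : Y ≤ p := by
    rw [hY, Ideal.span_le]
    rintro _ ⟨i, rfl⟩
    exact (hmemp _).2 (hy i)
  have hpY : p = Y := by
    refine le_antisymm ?_ hYp
    refine Submodule.le_of_le_smul_of_le_jacobson_bot (I := p) (IsNoetherian.noetherian p) hpj ?_
    intro z hz
    obtain ⟨g, hg⟩ := hsurj z
    have h0 : coeff 0 g = 0 := by
      have h1 := (hmemp _).1 (hIp hg)
      rw [map_sub, haev, (hmemp z).1 hz, zero_sub, neg_eq_zero] at h1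
      exact h1
    have h2 : aeval y g ∈ Y := by
      have := aeval_mem_of_pow y (k := 1) (by rw [pow_one]; exact mem_of_coeff_zero h0)
      rwa [pow_one, ← hY] at this
    have : z = aeval y g + (z - aeval y g) := by ring
    rw [this]
    exact add_mem (Ideal.mem_sup_left h2) (Ideal.mem_sup_right (hI2 hg))
  -- units
  have hunit : ∀ s : MvPolynomial ι O, coeff 0 s = 1 → IsUnit (aeval y s) := by
    intro s hs
    by_contra h
    have h1 : aeval y s - 1 ∈ p := by rw [hmemp, map_sub, haev, hs, map_one, sub_self]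
    have h2 := hpj h1
    rw [IsLocalRing.jacobson_eq_maximalIdeal ⊥ bot_ne_top] at h2
    have h3 := Ideal.sub_mem _ ((IsLocalRing.mem_maximalIdeal _).2 h) h2
    rw [sub_sub_cancel] at h3
    exact (Ideal.ne_top_iff_one _).1 (IsLocalRing.maximalIdeal.isMaximal R).ne_top h3
  -- the ideal generated by the equations
  obtain ⟨J', hJ'⟩ : ∃ J', J' = Ideal.span (Set.range fun i => aeval y (S.f i)) := ⟨_, rfl⟩
  have hJJ : ∀ g ∈ S.J, aeval y g ∈ J' := by
    intro g hg
    obtain ⟨c, rfl⟩ := Ideal.mem_span_range_iff_exists_fun.1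
      (show g ∈ Ideal.span (Set.range S.f) from hg)
    rw [map_sum]
    refine sum_mem fun i _ => ?_
    rw [map_mul, hJ']
    exact Ideal.mul_mem_left _ _ (Ideal.subset_span ⟨i, rfl⟩)
  have hkey : ∀ g : MvPolynomial ι O, aeval y g ∈ I → aeval y g ∈ J' := by
    intro g hg
    obtain ⟨s, hs, hsg⟩ := hC g hg
    have h1 := hJJ _ hsg
    rw [map_mul] at h1
    exact (Ideal.unit_mul_mem_iff_mem _ (hunit s hs)).1 h1
  have hdec : ∀ k : ℕ, ∀ r : R, ∃ g : MvPolynomial ι O, r - aeval y g ∈ Y ^ k := by
    intro k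
    induction k with
    | zero => intro r; exact ⟨0, by rw [pow_zero, Ideal.one_eq_top]; trivial⟩
    | succ k ih =>
      intro r
      have h1 : r - algebraMap O R (π r) ∈ Y := by
        rw [← hpY, hmemp, map_sub, AlgHom.commutes]
        exact sub_self _
      rw [hY] at h1
      obtain ⟨c, hc⟩ := Ideal.mem_span_range_iff_exists_fun.1 h1
      choose g hg using fun i => ih (c i)
      refine ⟨C (π r) + ∑ i, g i * X i, ?_⟩
      have e : r - aeval y (C (π r) + ∑ i, g i * X i) = ∑ i, (c i - aeval y (g i)) * y i := by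
        rw [map_add, aeval_C, map_sum]
        have : ∑ i, aeval y (g i * X i) = ∑ i, aeval y (g i) * y i :=
          Finset.sum_congr rfl fun i _ => by rw [map_mul, aeval_X]
        rw [this]
        simp only [sub_mul, Finset.sum_sub_distrib]
        rw [hc]
        ring
      rw [e, pow_succ]
      exact sum_mem fun i _ => Ideal.mul_mem_mul (hg i) (by rw [hY]; exact Ideal.subset_span ⟨i, rfl⟩)
  have hpow : ∀ k : ℕ, ∀ t ∈ Y ^ k, ∃ h ∈ 𝔛 ^ k, t - aeval y h ∈ I := by
    intro k t ht
    have h1 : Y ^ k = (𝔛 ^ k).map (aeval y) := by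
      rw [Ideal.map_pow, h𝔛, Ideal.map_span, ← Set.range_comp, hY]
      congr 3
      funext i
      exact (aeval_X y i).symm
    rw [h1] at ht
    unfold Ideal.map at ht
    induction ht using Submodule.span_induction with
    | mem x hx =>
      obtain ⟨h, hh, rfl⟩ := hx
      exact ⟨h, hh, by rw [sub_self]; exact zero_mem _⟩
    | zero => exact ⟨0, zero_mem _, by rw [map_zero, sub_zero]; exact zero_mem _⟩
    | add x x' _ _ h1 h2 =>
      obtain ⟨h, hh, hx⟩ := h1
      obtain ⟨h', hh', hx'⟩ := h2
      exact ⟨h + h', add_mem hh hh', by rw [map_add, add_sub_add_comm]; exact add_mem hx hx'⟩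
    | smul c x _ h1 =>
      obtain ⟨h, hh, hx⟩ := h1
      obtain ⟨g, hg⟩ := hsurj c
      refine ⟨g * h, Ideal.mul_mem_left _ _ hh, ?_⟩
      rw [map_mul, smul_eq_mul]
      have : c * x - aeval y g * aeval y h = c * (x - aeval y h) + (c - aeval y g) * aeval y h := by
        ring
      rw [this]
      exact add_mem (Ideal.mul_mem_left _ _ hx) (Ideal.mul_mem_right _ _ hg)
  have hIJ : I ≤ J' := by
    intro r hr
    have h1 : ∀ k, r ∈ J' ⊔ Y ^ k := by
      intro k
      obtain ⟨g, hg⟩ := hdec k r
      obtain ⟨h, hh, hth⟩ := hpow k _ hg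
      have h2 : aeval y (g + h) ∈ I := by
        have : aeval y (g + h) = r - (r - aeval y g - aeval y h) := by rw [map_add]; ring
        rw [this]
        exact sub_mem hr hth
      have h3 : r = aeval y (g + h) + ((r - aeval y g) - aeval y h) := by rw [map_add]; ring
      rw [h3]
      refine add_mem (Ideal.mem_sup_left (hkey _ h2)) (Ideal.mem_sup_right (sub_mem hg ?_))
      rw [hY]
      exact aeval_mem_of_pow y (h𝔛 ▸ hh)
    have h2 := Ideal.iInf_pow_smul_eq_bot_of_le_jacobson (M := R ⧸ J') p hpj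
    have h3 : Ideal.Quotient.mk J' r ∈ (⨅ i : ℕ, p ^ i • ⊤ : Submodule R (R ⧸ J')) := by
      rw [Submodule.mem_iInf]
      intro k
      obtain ⟨x, hx, z, hz, hxz⟩ := Submodule.mem_sup.1 (h1 k)
      have h4 : Ideal.Quotient.mk J' r = z • (1 : R ⧸ J') := by
        rw [← hxz, map_add, Ideal.Quotient.eq_zero_iff_mem.2 hx, zero_add, Algebra.smul_def,
          mul_one]
        rfl
      rw [h4, hpY]
      exact Submodule.smul_mem_smul hz trivial
    rw [h2, Submodule.mem_bot] at h3
    exact Ideal.Quotient.eq_zero_iff_mem.1 h3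
  -- the second step
  have hfin : ∀ i, aeval y (S.f i) ∈ p * I := by
    have h1 : ∀ i, ∃ c : ι → R, (∀ j, c j ∈ p) ∧ aeval y (S.f i) = ∑ j, c j * y j := by
      intro i
      have h2 := hI2 (hf i)
      rw [hpY] at h2
      nth_rewrite 2 [hY] at h2
      rw [← smul_eq_mul] at h2
      obtain ⟨c, hc, hc2⟩ := (Submodule.mem_ideal_smul_span_iff_exists_sum Y y _).1 h2
      refine ⟨c, fun j => by rw [hpY]; exact hc j, ?_⟩
      rw [← hc2, Finsupp.sum_fintype _ _ fun j => by rw [zero_smul]]
      rfl
    choose c hc hcf using h1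
    -- polynomials
    choose U hU using fun i j => hsurj (aeval y (S.A i j) - c i j)
    have hU0 : ∀ i j, coeff 0 (U i j) = coeff 0 (S.A i j) := by
      intro i j
      have h1 := (hmemp _).1 (hIp (hU i j))
      rw [map_sub, map_sub, haev, haev, (hmemp _).1 (hc i j), sub_zero, sub_eq_zero] at h1
      exact h1.symm
    have hfA : ∀ i, aeval y (S.f i) = ∑ j, aeval y (S.A i j) * y j := by
      intro i
      unfold SC.f
      rw [map_sum]
      exact Finset.sum_congr rfl fun j _ => by rw [map_mul, aeval_X]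
    have hUy : ∀ i, aeval y (∑ j, U i j * X j) =
        -∑ j, (aeval y (S.A i j) - c i j - aeval y (U i j)) * y j := by
      intro i
      rw [map_sum]
      have h1 : ∑ j, aeval y (U i j * X j) = ∑ j, aeval y (U i j) * y j :=
        Finset.sum_congr rfl fun j _ => by rw [map_mul, aeval_X]
      rw [h1]
      simp only [sub_mul, Finset.sum_sub_distrib]
      rw [← hfA, ← hcf]
      ring
    have hUI : ∀ i, aeval y (∑ j, U i j * X j) ∈ p * I := by
      intro i
      rw [hUy]
      refine neg_mem (sum_mem fun j _ => ?_)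
      have h9 := Ideal.mul_mem_mul ((hmemp _).2 (hy j)) (hU i j)
      rwa [mul_comm (y j)] at h9
    have hpI : p * I ≤ I := Ideal.mul_le_right
    choose s hs hsU using fun i => hC (∑ j, U i j * X j) (hpI (hUI i))
    have h2 : ∀ i, ∃ e : ι → MvPolynomial ι O, ∑ k, e k * S.f k = s i * ∑ j, U i j * X j :=
      fun i => Ideal.mem_span_range_iff_exists_fun.1 (hsU i)
    choose e he using h2
    -- the constant terms
    let L : Matrix ι ι O := (constantCoeff (R := O)).mapMatrix S.A
    let E : Matrix ι ι O := Matrix.of fun i k => constantCoeff (e i k)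
    have hL : L.det ≠ 0 := by
      have : L.det = coeff 0 S.D := (RingHom.map_det _ _).symm
      rwa [this]
    have hEL : E * L = L := by
      ext i j
      have h3 := congrArg (lin j) (he i)
      rw [lin_mul, lin_row, lin_sum] at h3
      have h4 : constantCoeff (∑ j, U i j * X j) = 0 := by
        rw [map_sum]
        exact Finset.sum_eq_zero fun j _ => by rw [map_mul, constantCoeff_X, mul_zero]
      have h5 : ∀ k, lin j (e i k * S.f k) = E i k * L k j := by
        intro k
        have h6 : constantCoeff (S.f k) = 0 := by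
          unfold SC.f
          rw [map_sum]
          exact Finset.sum_eq_zero fun j _ => by rw [map_mul, constantCoeff_X, mul_zero]
        have h7 : lin j (S.f k) = constantCoeff (S.A k j) := by
          unfold SC.f
          exact lin_row j _
        rw [lin_mul, h6, zero_mul, add_zero, h7]
        rfl
      have h8 : constantCoeff (s i) = 1 := by rw [constantCoeff_eq, hs]
      rw [h4, zero_mul, add_zero, h8, one_mul] at h3
      rw [Matrix.mul_apply, ← Finset.sum_congr rfl fun k _ => h5 k, h3]
      exact hU0 i j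
    have hE1 : E = 1 := by
      have h3 : (E - 1) * L = 0 := by rw [sub_mul, hEL, one_mul, sub_self]
      have h4 : (E - 1) * (L.det • (1 : Matrix ι ι O)) = 0 := by
        rw [← Matrix.mul_adjugate, ← mul_assoc, h3, zero_mul]
      rw [Matrix.mul_smul, mul_one] at h4
      have h5 : E - 1 = 0 := by
        ext i j
        have h6 := congrFun (congrFun h4 i) j
        rw [Matrix.smul_apply, smul_eq_mul] at h6
        exact (mul_eq_zero.1 h6).resolve_left hL
      exact sub_eq_zero.1 h5
    intro i
    have h3 : ∑ k, aeval y (e i k) * aeval y (S.f k) ∈ p * I := by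
      have h4 := congrArg (aeval y) (he i)
      rw [map_sum, map_mul] at h4
      have h5 : ∑ k, aeval y (e i k) * aeval y (S.f k) = ∑ k, aeval y (e i k * S.f k) :=
        Finset.sum_congr rfl fun k _ => by rw [map_mul]
      rw [h5, h4]
      exact Ideal.mul_mem_left _ _ (hUI i)
    have h4 : aeval y (S.f i) = ∑ k, aeval y (e i k) * aeval y (S.f k) -
        ∑ k, (aeval y (e i k) - (if i = k then 1 else 0)) * aeval y (S.f k) := by
      simp only [sub_mul, Finset.sum_sub_distrib, ite_mul, one_mul, zero_mul, Finset.sum_ite_eq,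
        Finset.mem_univ, if_true]
      ring
    rw [h4]
    refine sub_mem h3 (sum_mem fun k _ => Ideal.mul_mem_mul ?_ (hf k))
    rw [hmemp, map_sub, haev]
    have h5 : coeff 0 (e i k) = if i = k then 1 else 0 := by
      have h6 := congrFun (congrFun hE1 i) k
      rw [Matrix.one_apply] at h6
      exact h6
    rw [h5]
    split_ifs
    · rw [map_one, sub_self]
    · rw [map_zero, sub_zero]
  refine Submodule.eq_bot_of_le_smul_of_le_jacobson_bot p I (IsNoetherian.noetherian I) ?_ hpj
  refine hIJ.trans ?_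
  rw [hJ', Ideal.span_le]
  rintro _ ⟨i, rfl⟩
  exact hfin i

end Fermat.Agent.NumC
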