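import Mathlib

/-!
# Isomorphism on cotangent spaces and complete intersections, general form
-/

set_option autoImplicit false

noncomputable section

namespace Fermat.Agent.NumC

variable {ι : Type*} {O P R : Type*} [CommRing O] [IsDomain O] [Fintype ι] [DecidableEq ι]
  [CommRing P] [CommRing R] [IsLocalRing R] [IsNoetherianRing R]

set_option maxHeartbeats 1000000 in
theorem lift_bot_gen (κ : P →+* O) (c : O →+* P) (hκc : ∀ x, κ (c x) = x) (v : ι → P)
    (hv : ∀ j, κ (v j) = 0) (hα : ∀ x, κ x = 0 → x ∈ Ideal.span (Set.range v))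
    (hγ : ∀ w : ι → P, ∑ j, w j * v j = 0 → ∀ j, κ (w j) = 0)
    (π : R →+* O) (Ψ : P →+* R) (hπ : ∀ x, π (Ψ x) = κ x) (I : Ideal R) (A : Matrix ι ι P)
    (f : ι → P) (hfA : ∀ i, f i = ∑ j, A i j * v j)
    (hf : ∀ i, Ψ (f i) ∈ I) (hsurj : ∀ r : R, ∃ g : P, r - Ψ g ∈ I)
    (hC : ∀ g : P, Ψ g ∈ I → ∃ s : P, κ s = 1 ∧ s * g ∈ Ideal.span (Set.range f))
    (hI2 : I ≤ RingHom.ker π * RingHom.ker π) (hdet : κ A.det ≠ 0) : I = ⊥ := by
  obtain ⟨y, hy⟩ : ∃ y : ι → R, y = fun j => Ψ (v j) := ⟨_, rfl⟩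
  have hyv : ∀ j, Ψ (v j) = y j := fun j => by rw [hy]
  obtain ⟨p, hp⟩ : ∃ p, p = RingHom.ker π := ⟨_, rfl⟩
  obtain ⟨Y, hY⟩ : ∃ Y, Y = Ideal.span (Set.range y) := ⟨_, rfl⟩
  obtain ⟨𝔛, h𝔛⟩ : ∃ 𝔛, 𝔛 = Ideal.span (Set.range v) := ⟨_, rfl⟩
  have hY𝔛 : Y = 𝔛.map Ψ := by
    rw [hY, h𝔛, Ideal.map_span, ← Set.range_comp, hy]
    rfl
  rw [← hp] at hI2
  have hmemp : ∀ r, r ∈ p ↔ π r = 0 := fun r => by rw [hp, RingHom.mem_ker]
  have hIp : I ≤ p := hI2.trans Ideal.mul_le_left
  have hpj : p ≤ (⊥ : Ideal R).jacobson := by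
    rw [IsLocalRing.jacobson_eq_maximalIdeal ⊥ bot_ne_top]
    refine IsLocalRing.le_maximalIdeal ?_
    rw [Ne, Ideal.eq_top_iff_one, hmemp, map_one]
    exact one_ne_zero
  have hYp : Y ≤ p := by
    rw [hY, Ideal.span_le]
    rintro _ ⟨i, rfl⟩
    exact (hmemp _).2 (by rw [← hyv, hπ, hv])
  have hΨY : ∀ g ∈ 𝔛, Ψ g ∈ Y := fun g hg => by rw [hY𝔛]; exact Ideal.mem_map_of_mem Ψ hg
  have hpY : p = Y := by
    refine le_antisymm ?_ hYp
    refine Submodule.le_of_le_smul_of_le_jacobson_bot (I := p) (IsNoetherian.noetherian p) hpj ?_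
    intro z hz
    obtain ⟨g, hg⟩ := hsurj z
    have h0 : κ g = 0 := by
      have h1 := (hmemp _).1 (hIp hg)
      rw [map_sub, hπ, (hmemp z).1 hz, zero_sub, neg_eq_zero] at h1
      exact h1
    have h2 : Ψ g ∈ Y := hΨY g (h𝔛 ▸ hα g h0)
    have : z = Ψ g + (z - Ψ g) := by ring
    rw [this]
    exact add_mem (Ideal.mem_sup_left h2) (Ideal.mem_sup_right (hI2 hg))
  -- units
  have hunit : ∀ s : P, κ s = 1 → IsUnit (Ψ s) := by
    intro s hs
    by_contra h
    have h1 : Ψ s - 1 ∈ p := by rw [hmemp, map_sub, hπ, hs, map_one, sub_self]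
    have h2 := hpj h1
    rw [IsLocalRing.jacobson_eq_maximalIdeal ⊥ bot_ne_top] at h2
    have h3 := Ideal.sub_mem _ ((IsLocalRing.mem_maximalIdeal _).2 h) h2
    rw [sub_sub_cancel] at h3
    exact (Ideal.ne_top_iff_one _).1 (IsLocalRing.maximalIdeal.isMaximal R).ne_top h3
  -- the ideal generated by the equations
  obtain ⟨J', hJ'⟩ : ∃ J', J' = Ideal.span (Set.range fun i => Ψ (f i)) := ⟨_, rfl⟩
  have hJJ : ∀ g ∈ Ideal.span (Set.range f), Ψ g ∈ J' := by
    intro g hg
    obtain ⟨c, rfl⟩ := Ideal.mem_span_range_iff_exists_fun.1 hg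
    rw [map_sum]
    refine sum_mem fun i _ => ?_
    rw [map_mul, hJ']
    exact Ideal.mul_mem_left _ _ (Ideal.subset_span ⟨i, rfl⟩)
  have hkey : ∀ g : P, Ψ g ∈ I → Ψ g ∈ J' := by
    intro g hg
    obtain ⟨s, hs, hsg⟩ := hC g hg
    have h1 := hJJ _ hsg
    rw [map_mul] at h1
    exact (Ideal.unit_mul_mem_iff_mem _ (hunit s hs)).1 h1
  have hdec : ∀ k : ℕ, ∀ r : R, ∃ g : P, r - Ψ g ∈ Y ^ k := by
    intro k
    induction k with
    | zero => intro r; exact ⟨0, by rw [pow_zero, Ideal.one_eq_top]; trivial⟩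
    | succ k ih =>
      intro r
      have h1 : r - Ψ (c (π r)) ∈ Y := by
        rw [← hpY, hmemp, map_sub, hπ, hκc]
        exact sub_self _
      rw [hY] at h1
      obtain ⟨e, he⟩ := Ideal.mem_span_range_iff_exists_fun.1 h1
      choose g hg using fun i => ih (e i)
      refine ⟨c (π r) + ∑ i, g i * v i, ?_⟩
      have e' : r - Ψ (c (π r) + ∑ i, g i * v i) = ∑ i, (e i - Ψ (g i)) * y i := by
        rw [map_add, map_sum]
        have : ∑ i, Ψ (g i * v i) = ∑ i, Ψ (g i) * y i :=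
          Finset.sum_congr rfl fun i _ => by rw [map_mul, hyv]
        rw [this]
        simp only [sub_mul, Finset.sum_sub_distrib]
        rw [he]
        ring
      rw [e', pow_succ]
      exact sum_mem fun i _ => Ideal.mul_mem_mul (hg i) (by rw [hY]; exact Ideal.subset_span ⟨i, rfl⟩)
  have hpow : ∀ k : ℕ, ∀ t ∈ Y ^ k, ∃ h ∈ 𝔛 ^ k, t - Ψ h ∈ I := by
    intro k t ht
    rw [hY𝔛, ← Ideal.map_pow] at ht
    unfold Ideal.map at ht
    induction ht using Submodule.span_induction with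
    | mem x hx =>
      obtain ⟨h, hh, rfl⟩ := hx
      exact ⟨h, hh, by rw [sub_self]; exact zero_mem _⟩
    | zero => exact ⟨0, zero_mem _, by rw [map_zero, sub_zero]; exact zero_mem _⟩
    | add x x' _ _ h1 h2 =>
      obtain ⟨h, hh, hx⟩ := h1
      obtain ⟨h', hh', hx'⟩ := h2
      exact ⟨h + h', add_mem hh hh', by rw [map_add, add_sub_add_comm]; exact add_mem hx hx'⟩
    | smul c x _ h1 =>
      obtain ⟨h, hh, hx⟩ := h1
      obtain ⟨g, hg⟩ := hsurj c
      refine ⟨g * h, Ideal.mul_mem_left _ _ hh, ?_⟩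
      rw [map_mul, smul_eq_mul]
      have : c * x - Ψ g * Ψ h = c * (x - Ψ h) + (c - Ψ g) * Ψ h := by
        ring
      rw [this]
      exact add_mem (Ideal.mul_mem_left _ _ hx) (Ideal.mul_mem_right _ _ hg)
  have hIJ : I ≤ J' := by
    intro r hr
    have h1 : ∀ k, r ∈ J' ⊔ Y ^ k := by
      intro k
      obtain ⟨g, hg⟩ := hdec k r
      obtain ⟨h, hh, hth⟩ := hpow k _ hg
      have h2 : Ψ (g + h) ∈ I := by
        have : Ψ (g + h) = r - (r - Ψ g - Ψ h) := by rw [map_add]; ring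
        rw [this]
        exact sub_mem hr hth
      have h3 : r = Ψ (g + h) + ((r - Ψ g) - Ψ h) := by rw [map_add]; ring
      rw [h3]
      refine add_mem (Ideal.mem_sup_left (hkey _ h2)) (Ideal.mem_sup_right (sub_mem hg ?_))
      rw [hY𝔛, ← Ideal.map_pow]
      exact Ideal.mem_map_of_mem Ψ hh
    have h2 := Ideal.iInf_pow_smul_eq_bot_of_le_jacobson (M := R ⧸ J') p hpj
    have h3 : Ideal.Quotient.mk J' r ∈ (⨅ i : ℕ, p ^ i • ⊤ : Submodule R (R ⧸ J')) := by
      rw [Submodule.mem_iInf]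
      intro k
      obtain ⟨x, hx, z, hz, hxz⟩ := Submodule.mem_sup.1 (h1 k)
      have h4 : Ideal.Quotient.mk J' r = z • (1 : R ⧸ J') := by
        rw [← hxz, map_add, Ideal.Quotient.eq_zero_iff_mem.2 hx, zero_add, Algebra.smul_def,
          mul_one]
        rfl
      rw [h4, hpY]
      exact Submodule.smul_mem_smul hz trivial
    rw [h2, Submodule.mem_bot] at h3
    exact Ideal.Quotient.eq_zero_iff_mem.1 h3
  -- the second step
  have hfin : ∀ i, Ψ (f i) ∈ p * I := by
    have h1 : ∀ i, ∃ c : ι → R, (∀ j, c j ∈ p) ∧ Ψ (f i) = ∑ j, c j * y j := by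
      intro i
      have h2 := hI2 (hf i)
      rw [hpY] at h2
      nth_rewrite 2 [hY] at h2
      rw [← smul_eq_mul] at h2
      obtain ⟨c, hc, hc2⟩ := (Submodule.mem_ideal_smul_span_iff_exists_sum Y y _).1 h2
      refine ⟨c, fun j => by rw [hpY]; exact hc j, ?_⟩
      rw [← hc2, Finsupp.sum_fintype _ _ fun j => by rw [zero_smul]]
      rfl
    choose c hc hcf using h1
    choose U hU using fun i j => hsurj (Ψ (A i j) - c i j)
    have hU0 : ∀ i j, κ (U i j) = κ (A i j) := by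
      intro i j
      have h1 := (hmemp _).1 (hIp (hU i j))
      rw [map_sub, map_sub, hπ, hπ, (hmemp _).1 (hc i j), sub_zero, sub_eq_zero] at h1
      exact h1.symm
    have hfA' : ∀ i, Ψ (f i) = ∑ j, Ψ (A i j) * y j := by
      intro i
      rw [hfA, map_sum]
      exact Finset.sum_congr rfl fun j _ => by rw [map_mul, hyv]
    have hUy : ∀ i, Ψ (∑ j, U i j * v j) =
        -∑ j, (Ψ (A i j) - c i j - Ψ (U i j)) * y j := by
      intro i
      rw [map_sum]
      have h1 : ∑ j, Ψ (U i j * v j) = ∑ j, Ψ (U i j) * y j :=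
        Finset.sum_congr rfl fun j _ => by rw [map_mul, hyv]
      rw [h1]
      simp only [sub_mul, Finset.sum_sub_distrib]
      rw [← hfA', ← hcf]
      ring
    have hUI : ∀ i, Ψ (∑ j, U i j * v j) ∈ p * I := by
      intro i
      rw [hUy]
      refine neg_mem (sum_mem fun j _ => ?_)
      have h9 := Ideal.mul_mem_mul (hYp (by rw [hY]; exact Ideal.subset_span ⟨j, rfl⟩)) (hU i j)
      rwa [mul_comm (y j)] at h9
    have hpI : p * I ≤ I := Ideal.mul_le_right
    choose s hs hsU using fun i => hC (∑ j, U i j * v j) (hpI (hUI i))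
    have h2 : ∀ i, ∃ e : ι → P, ∑ k, e k * f k = s i * ∑ j, U i j * v j :=
      fun i => Ideal.mem_span_range_iff_exists_fun.1 (hsU i)
    choose e he using h2
    -- the constant terms
    let L : Matrix ι ι O := κ.mapMatrix A
    let E : Matrix ι ι O := Matrix.of fun i k => κ (e i k)
    have hL : L.det ≠ 0 := by
      have : L.det = κ A.det := (RingHom.map_det _ _).symm
      rwa [this]
    have hEL : E * L = L := by
      ext i j
      have h3 : ∑ j, (∑ k, e i k * A k j - s i * U i j) * v j = 0 := by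
        simp only [sub_mul, Finset.sum_sub_distrib, Finset.sum_mul]
        rw [Finset.sum_comm, sub_eq_zero]
        have h4 := he i
        simp only [hfA, Finset.mul_sum] at h4
        refine Eq.trans ?_ (h4.trans ?_)
        · exact Finset.sum_congr rfl fun k _ => Finset.sum_congr rfl fun j _ => by ring
        · exact Finset.sum_congr rfl fun j _ => by ring
      have h5 := hγ _ h3 j
      rw [map_sub, map_sum, map_mul, hs, one_mul, hU0, sub_eq_zero] at h5
      rw [Matrix.mul_apply]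
      have h6 : ∑ k, E i k * L k j = ∑ k, κ (e i k * A k j) :=
        Finset.sum_congr rfl fun k _ => by rw [map_mul]; rfl
      rw [h6, h5]
      rfl
    have hE1 : E = 1 := by
      have h3 : (E - 1) * L = 0 := by rw [sub_mul, hEL, one_mul, sub_self]
      have h4 : (E - 1) * (L.det • (1 : Matrix ι ι O)) = 0 := by
        rw [← Matrix.mul_adjugate, ← mul_assoc, h3, zero_mul]
      rw [Matrix.mul_smul, mul_one] at h4
      have h5 : E - 1 = 0 := by
        ext i j
        have h6 := congrFun (congrFun h4 i) j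
        rw [Matrix.smul_apply, smul_eq_mul] at h6
        exact (mul_eq_zero.1 h6).resolve_left hL
      exact sub_eq_zero.1 h5
    intro i
    have h3 : ∑ k, Ψ (e i k) * Ψ (f k) ∈ p * I := by
      have h4 := congrArg Ψ (he i)
      rw [map_sum, map_mul] at h4
      have h5 : ∑ k, Ψ (e i k) * Ψ (f k) = ∑ k, Ψ (e i k * f k) :=
        Finset.sum_congr rfl fun k _ => by rw [map_mul]
      rw [h5, h4]
      exact Ideal.mul_mem_left _ _ (hUI i)
    have h4 : Ψ (f i) = ∑ k, Ψ (e i k) * Ψ (f k) -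
        ∑ k, (Ψ (e i k) - (if i = k then 1 else 0)) * Ψ (f k) := by
      simp only [sub_mul, Finset.sum_sub_distrib, ite_mul, one_mul, zero_mul, Finset.sum_ite_eq,
        Finset.mem_univ, if_true]
      ring
    rw [h4]
    refine sub_mem h3 (sum_mem fun k _ => Ideal.mul_mem_mul ?_ (hf k))
    rw [hmemp, map_sub, hπ]
    have h5 : κ (e i k) = if i = k then 1 else 0 := by
      have h6 := congrFun (congrFun hE1 i) k
      rw [Matrix.one_apply] at h6
      exact h6
    rw [h5]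
    split_ifs
    · rw [map_one, sub_self]
    · rw [map_zero, sub_zero]
  refine Submodule.eq_bot_of_le_smul_of_le_jacobson_bot p I (IsNoetherian.noetherian I) ?_ hpj
  refine hIJ.trans ?_
  rw [hJ', Ideal.span_le]
  rintro _ ⟨i, rfl⟩
  exact hfin i

end Fermat.Agent.NumC
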