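import Fermat.Agent.NumC.SC

/-!
# A special complete intersection, III: acting on a module
-/

set_option autoImplicit false

noncomputable section

namespace Fermat.Agent.NumC

open MvPolynomial IsLocalRing

variable {ι : Type*} {O : Type*} [CommRing O] [Fintype ι] [DecidableEq ι]

theorem coeff_zero_mul (p q : MvPolynomial ι O) : coeff 0 (p * q) = coeff 0 p * coeff 0 q := by
  have := map_mul (constantCoeff (R := O) (σ := ι)) p q
  simpa [constantCoeff_eq] using this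

theorem coeff_zero_of_mem {x : MvPolynomial ι O}
    (hx : x ∈ Ideal.span (Set.range (X : ι → MvPolynomial ι O))) : coeff 0 x = 0 := by
  obtain ⟨c, rfl⟩ := Ideal.mem_span_range_iff_exists_fun.1 hx
  rw [coeff_sum]
  refine Finset.sum_eq_zero fun i _ => ?_
  rw [coeff_zero_mul, coeff_zero_X, mul_zero]

theorem mem_of_coeff_zero {x : MvPolynomial ι O} (hx : coeff 0 x = 0) :
    x ∈ Ideal.span (Set.range (X : ι → MvPolynomial ι O)) := by
  have := sub_C_mem x
  rwa [hx, C_0, sub_zero] at this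

namespace SC

variable (S : SC ι O)

theorem finite_quot (𝔞 : Ideal O) : Module.Finite O (MvPolynomial ι O ⧸ S.Ja 𝔞) := by
  let W : Submodule O (MvPolynomial ι O) :=
    Submodule.span O ((fun b => monomial b (1 : O)) '' (Set.Iic (topE ι)))
  haveI : Module.Finite O W := Module.Finite.span_of_finite O ((Set.finite_Iic _).image _)
  refine Module.Finite.of_surjective
    ((Ideal.Quotient.mkₐ O (S.Ja 𝔞)).toLinearMap ∘ₗ W.subtype) ?_
  intro q
  obtain ⟨z, rfl⟩ := Ideal.Quotient.mk_surjective q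
  obtain ⟨w, hw, hzw⟩ := exists_nf S.f_good z
  refine ⟨⟨w, ?_⟩, ?_⟩
  · rw [w.as_sum]
    refine sum_mem fun b hb => ?_
    rw [monomial_eq_smul]
    exact Submodule.smul_mem _ _ (Submodule.subset_span ⟨b, fun i => hw b hb i, rfl⟩)
  · change Ideal.Quotient.mk _ w = Ideal.Quotient.mk _ z
    rw [eq_comm, Ideal.Quotient.eq]
    exact S.J_le 𝔞 hzw

variable [IsLocalRing O]

/-- the kernel of the localization map modulo the maximal ideal -/
def Z : Ideal (MvPolynomial ι O) where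
  carrier := {z | ∃ s : MvPolynomial ι O, coeff 0 s = 1 ∧ s * z ∈ S.Ja (maximalIdeal O)}
  add_mem' := by
    rintro a b ⟨s, hs, hsa⟩ ⟨t, ht, htb⟩
    refine ⟨s * t, by rw [coeff_zero_mul, hs, ht, mul_one], ?_⟩
    have : s * t * (a + b) = t * (s * a) + s * (t * b) := by ring
    rw [this]
    exact add_mem (Ideal.mul_mem_left _ _ hsa) (Ideal.mul_mem_left _ _ htb)
  zero_mem' := ⟨1, by rw [coeff_zero_one], by rw [mul_zero]; exact zero_mem _⟩
  smul_mem' := by
    rintro c a ⟨s, hs, hsa⟩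
    refine ⟨s, hs, ?_⟩
    rw [smul_eq_mul, mul_left_comm]
    exact Ideal.mul_mem_left _ _ hsa

theorem mem_Z {z : MvPolynomial ι O} :
    z ∈ S.Z ↔ ∃ s : MvPolynomial ι O, coeff 0 s = 1 ∧ s * z ∈ S.Ja (maximalIdeal O) := Iff.rfl

theorem isArtinian : IsArtinianRing (MvPolynomial ι O ⧸ S.Ja (maximalIdeal O)) := by
  letI : Field (O ⧸ maximalIdeal O) := Ideal.Quotient.field _
  let φ : O ⧸ maximalIdeal O →+* MvPolynomial ι O ⧸ S.Ja (maximalIdeal O) :=
    Ideal.Quotient.lift _ (algebraMap O _) fun x hx => by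
      rw [IsScalarTower.algebraMap_apply O (MvPolynomial ι O) _]
      refine Ideal.Quotient.eq_zero_iff_mem.2 (Ideal.mem_sup_right ?_)
      exact Ideal.mem_map_of_mem C hx
  letI : Algebra (O ⧸ maximalIdeal O) (MvPolynomial ι O ⧸ S.Ja (maximalIdeal O)) := φ.toAlgebra
  haveI : IsScalarTower O (O ⧸ maximalIdeal O) (MvPolynomial ι O ⧸ S.Ja (maximalIdeal O)) :=
    IsScalarTower.of_algebraMap_eq fun x => (Ideal.Quotient.lift_mk _ _ _).symm
  haveI := S.finite_quot (maximalIdeal O)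
  haveI : Module.Finite (O ⧸ maximalIdeal O) (MvPolynomial ι O ⧸ S.Ja (maximalIdeal O)) :=
    Module.Finite.of_restrictScalars_finite O _ _
  exact IsArtinianRing.of_finite (O ⧸ maximalIdeal O) _

theorem exists_pow_le : ∃ N : ℕ,
    Ideal.span (Set.range (X : ι → MvPolynomial ι O)) ^ N ≤ S.Z := by
  classical
  haveI := S.isArtinian
  obtain ⟨𝔛, h𝔛⟩ : ∃ 𝔛, 𝔛 = Ideal.span (Set.range (X : ι → MvPolynomial ι O)) := ⟨_, rfl⟩
  obtain ⟨mk, hmk⟩ : ∃ mk, mk = Ideal.Quotient.mk (S.Ja (maximalIdeal O)) := ⟨_, rfl⟩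
  let g : ℕ →o (Ideal (MvPolynomial ι O ⧸ S.Ja (maximalIdeal O)))ᵒᵈ :=
    ⟨fun n => OrderDual.toDual ((𝔛 ^ n).map mk), fun m n hmn => by
      rw [OrderDual.toDual_le_toDual]
      exact Ideal.map_mono (Ideal.pow_le_pow_right hmn)⟩
  obtain ⟨N, hN⟩ := IsArtinian.monotone_stabilizes g
  have h1 : (𝔛 ^ N).map mk = (𝔛 ^ (N + 1)).map mk := OrderDual.toDual.injective (hN _ (Nat.le_succ _))
  have hfg : ((𝔛 ^ N).map mk).FG := by
    refine Ideal.FG.map (Ideal.FG.pow ?_) _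
    rw [h𝔛]
    exact ⟨Finset.univ.image X, by rw [Finset.coe_image, Finset.coe_univ, Set.image_univ]⟩
  obtain ⟨r, hr, hrN⟩ := Submodule.exists_sub_one_mem_and_smul_eq_zero_of_fg_of_le_smul
    (𝔛.map mk) ((𝔛 ^ N).map mk) hfg (by
      conv_lhs => rw [h1, pow_succ, Ideal.map_mul, mul_comm]
      exact le_rfl)
  obtain ⟨x, hx, hxr⟩ := (Ideal.mem_map_iff_of_surjective mk
    (by rw [hmk]; exact Ideal.Quotient.mk_surjective)).1 hr
  refine ⟨N, fun z hz => ⟨1 + x, ?_, ?_⟩⟩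
  · rw [coeff_add, coeff_zero_one, coeff_zero_of_mem (h𝔛 ▸ hx), add_zero]
  · rw [← Ideal.Quotient.eq_zero_iff_mem, ← hmk, map_mul, map_add, map_one, hxr,
      add_sub_cancel]
    exact hrN _ (Ideal.mem_map_of_mem mk (by rw [h𝔛]; exact hz))

/-- common denominators -/
theorem exists_common (z : MvPolynomial ι O) (h : ∀ j, X j * z ∈ S.Z) :
    ∃ s : MvPolynomial ι O, coeff 0 s = 1 ∧ ∀ j, X j * (s * z) ∈ S.Ja (maximalIdeal O) := by
  choose s hs hsz using h
  refine ⟨∏ j, s j, ?_, fun j => ?_⟩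
  · have := map_prod (constantCoeff (R := O) (σ := ι)) s Finset.univ
    simp only [constantCoeff_eq] at this
    rw [this]
    exact Finset.prod_eq_one fun j _ => hs j
  · rw [← Finset.mul_prod_erase _ _ (Finset.mem_univ j)]
    have : X j * (s j * (∏ x ∈ Finset.univ.erase j, s x) * z) =
      (∏ x ∈ Finset.univ.erase j, s x) * (s j * (X j * z)) := by ring
    rw [this]
    exact Ideal.mul_mem_left _ _ (hsz j)

theorem mem_Z_of_mul {z s : MvPolynomial ι O} (hs : coeff 0 s = 1) (h : s * z ∈ S.Z) :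
    z ∈ S.Z := by
  obtain ⟨t, ht, htz⟩ := h
  exact ⟨t * s, by rw [coeff_zero_mul, ht, hs, mul_one], by rw [mul_assoc]; exact htz⟩

theorem Ja_le_Z : S.Ja (maximalIdeal O) ≤ S.Z := fun z hz =>
  ⟨1, coeff_zero_one, by rwa [one_mul]⟩

/-- elements outside `Z` have a multiple which is the socle generator -/
theorem exists_socle {z : MvPolynomial ι O} (hz : z ∉ S.Z) :
    ∃ g : MvPolynomial ι O, ∃ u : O, IsUnit u ∧ g * z - C u * S.D ∈ S.Ja (maximalIdeal O) := by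
  classical
  obtain ⟨N, hN⟩ := S.exists_pow_le
  obtain ⟨𝔛, h𝔛⟩ : ∃ 𝔛, 𝔛 = Ideal.span (Set.range (X : ι → MvPolynomial ι O)) := ⟨_, rfl⟩
  rw [← h𝔛] at hN
  have hex : ∃ k, ∀ g ∈ 𝔛 ^ k, g * z ∈ S.Z :=
    ⟨N, fun g hg => Ideal.mul_mem_right _ _ (hN hg)⟩
  obtain ⟨k, hk, hkmin⟩ : ∃ k, (∀ g ∈ 𝔛 ^ k, g * z ∈ S.Z) ∧
      ∀ m < k, ¬ ∀ g ∈ 𝔛 ^ m, g * z ∈ S.Z := ⟨Nat.find hex, Nat.find_spec hex,
        fun m hm => Nat.find_min hex hm⟩
  have hk0 : k ≠ 0 := by
    rintro rfl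
    apply hz
    have := hk 1 (by rw [pow_zero, Ideal.one_eq_top]; trivial)
    rwa [one_mul] at this
  obtain ⟨m, rfl⟩ := Nat.exists_eq_succ_of_ne_zero hk0
  have h1 := hkmin m (Nat.lt_succ_self m)
  push Not at h1
  obtain ⟨g, hg, hgz⟩ := h1
  obtain ⟨s, hs, hsz⟩ := S.exists_common (g * z) fun j => by
    rw [← mul_assoc]
    refine hk _ ?_
    rw [pow_succ']
    exact Ideal.mul_mem_mul (by rw [h𝔛]; exact Ideal.subset_span ⟨j, rfl⟩) hg
  have h2 := S.socle hsz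
  refine ⟨s * g, S.τ (s * (g * z)), ?_, by rw [mul_assoc]; exact h2⟩
  by_contra hu
  apply hgz
  refine S.mem_Z_of_mul hs (S.Ja_le_Z ?_)
  have h3 : C (S.τ (s * (g * z))) * S.D ∈ S.Ja (maximalIdeal O) :=
    Ideal.mul_mem_right _ _ (Ideal.mem_sup_right (Ideal.mem_map_of_mem C
      ((mem_maximalIdeal _).2 hu)))
  have := add_mem h2 h3
  rwa [sub_add_cancel] at this

end SC

end Fermat.Agent.NumC
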