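import Fermat.Agent.NumC.Act

/-!
# Resolution by a special complete intersection
-/

set_option autoImplicit false

noncomputable section

namespace Fermat.Agent.NumC

open MvPolynomial IsDiscreteValuationRing

variable {O : Type*} [CommRing O] [IsDomain O] [IsDiscreteValuationRing O]

theorem isTorsion_of_length {M : Type*} [AddCommGroup M] [Module O M]
    (h : Module.length O M ≠ ⊤) : Module.IsTorsion O M := by
  intro x
  by_contra hx
  push Not at hx
  have hinj : Function.Injective (LinearMap.toSpanSingleton O M x) := by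
    rw [injective_iff_map_eq_zero]
    intro c hc
    by_contra hc0
    exact hx ⟨c, mem_nonZeroDivisors_of_ne_zero hc0⟩ hc
  have h1 := Module.length_le_of_injective _ hinj
  have h2 : Module.length O O ≠ ⊤ := fun h0 => h (top_le_iff.1 (h0 ▸ h1))
  rw [Module.length_ne_top_iff, isFiniteLength_iff_isNoetherian_isArtinian] at h2
  haveI : IsArtinianRing O := h2.2
  exact IsDiscreteValuationRing.not_krullDimLE_zero O inferInstance

theorem finrank_eq_of_length {M : Type*} [AddCommGroup M] [Module O M] [Module.Finite O M]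
    {N : Submodule O M} (h : Module.length O (M ⧸ N) ≠ ⊤) :
    Module.finrank O N = Module.finrank O M := by
  have h1 := Module.finrank_eq_zero_iff_isTorsion.2 (isTorsion_of_length h)
  have h2 := Submodule.finrank_quotient_add_finrank N
  omega

theorem length_smith {M : Type*} [AddCommGroup M] [Module O M] {n : ℕ}
    (b : Module.Basis (Fin n) O M) {N : Submodule O M}
    (h : Module.finrank O N = Module.finrank O M) :
    Module.length O (M ⧸ N) = addVal O (∏ i, Submodule.smithNormalFormCoeffs b h i) := by
  rw [(Submodule.quotientEquivPiSpan N b h).length_eq, Module.length_pi_of_fintype]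
  have : ∀ s : Finset (Fin n), addVal O (∏ i ∈ s, Submodule.smithNormalFormCoeffs b h i) =
      ∑ i ∈ s, addVal O (Submodule.smithNormalFormCoeffs b h i) := by
    classical
    intro s
    induction s using Finset.induction_on with
    | empty => rw [Finset.prod_empty, Finset.sum_empty, addVal_one]
    | insert i s hi ih => rw [Finset.prod_insert hi, Finset.sum_insert hi, addVal_mul, ih]
  rw [this]
  refine Finset.sum_congr rfl fun i _ => ?_
  rw [← Ring.ord_eq_addVal]
  rfl

variable {T : Type*} [CommRing T] [Algebra O T] [Module.Finite O T] [Module.Free O T]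

/-- products in an ideal with a given set of `O`-generators -/
theorem mem_mul_self {I : Ideal T} {n : ℕ} (a : Fin n → T)
    (ha : ∀ x ∈ I, ∃ c : Fin n → O, x = ∑ j, c j • a j) {z : T} (hz : z ∈ I * I) :
    ∃ q : Fin n → Fin n → O, z = ∑ j, ∑ k, q j k • (a k * a j) := by
  induction hz using Submodule.mul_induction_on' with
  | mem_mul_mem x hx y hy =>
    obtain ⟨u, rfl⟩ := ha x hx
    obtain ⟨v, rfl⟩ := ha y hy
    refine ⟨fun j k => v j * u k, ?_⟩
    rw [mul_comm, Finset.sum_mul_sum]
    refine Finset.sum_congr rfl fun j _ => Finset.sum_congr rfl fun k _ => ?_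
    rw [smul_mul_smul_comm, mul_comm (a j)]
  | add x _ y _ h1 h2 =>
    obtain ⟨q, rfl⟩ := h1
    obtain ⟨r, rfl⟩ := h2
    refine ⟨q + r, ?_⟩
    simp only [Pi.add_apply, add_smul, Finset.sum_add_distrib]

theorem exists_resolution (π : T →ₐ[O] O)
    (hfin : Module.length O (RingHom.ker π).Cotangent ≠ ⊤) :
    ∃ (n : ℕ) (S : SC (Fin n) O) (a : Fin n → T), (∀ i, π (a i) = 0) ∧
      Function.Surjective (aeval a : MvPolynomial (Fin n) O →ₐ[O] T) ∧
      (∀ i, aeval a (S.f i) = 0) ∧ coeff 0 S.D ≠ 0 ∧
      addVal O (coeff 0 S.D) = Module.length O (RingHom.ker π).Cotangent ∧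
      (∀ u : Fin n → O, ∑ j, u j • a j ∈ RingHom.ker π * RingHom.ker π →
        ∃ e : Fin n → O, ∀ j, u j = ∑ i, e i * coeff 0 (S.A i j)) := by
  classical
  obtain ⟨I, hI⟩ : ∃ I, I = RingHom.ker π := ⟨_, rfl⟩
  rw [← hI] at hfin ⊢
  haveI : Module.Finite O I := inferInstanceAs (Module.Finite O (I.restrictScalars O))
  haveI : Module.Free O I := inferInstanceAs (Module.Free O (I.restrictScalars O))
  let N : Submodule O I := (I • ⊤ : Submodule T I).restrictScalars O
  let e0 : (I ⧸ N) ≃ₗ[O] I.Cotangent := Submodule.Quotient.restrictScalarsEquiv O _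
  have hlen : Module.length O (I ⧸ N) = Module.length O I.Cotangent := e0.length_eq
  have hrank : Module.finrank O N = Module.finrank O I :=
    finrank_eq_of_length (by rw [hlen]; exact hfin)
  let b0 := Module.finBasis O I
  have hls := length_smith b0 hrank
  obtain ⟨n, hn⟩ : ∃ n, n = Module.finrank O I := ⟨_, rfl⟩
  let b' := Submodule.smithNormalFormTopBasis b0 hrank
  let c := Submodule.smithNormalFormCoeffs b0 hrank
  let a : Fin (Module.finrank O I) → T := fun i => (b' i : T)
  have haI : ∀ i, a i ∈ I := fun i => (b' i).2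
  have haspan : ∀ x ∈ I, ∃ u : Fin (Module.finrank O I) → O, x = ∑ j, u j • a j := by
    intro x hx
    refine ⟨fun j => b'.repr ⟨x, hx⟩ j, ?_⟩
    have h1 : ((∑ j, b'.repr ⟨x, hx⟩ j • b' j : I) : T) = x :=
      congrArg (Subtype.val) (b'.sum_repr ⟨x, hx⟩)
    refine h1.symm.trans ?_
    rw [AddSubmonoidClass.coe_finset_sum]
    rfl
  have hq : ∀ i, ∃ q : Fin (Module.finrank O I) → Fin (Module.finrank O I) → O,
      c i • a i = ∑ j, ∑ k, q j k • (a k * a j) := by
    intro i
    refine mem_mul_self a haspan ?_
    have h1 : (Submodule.smithNormalFormBotBasis b0 hrank i : I) ∈ (I • ⊤ : Submodule T I) :=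
      (Submodule.smithNormalFormBotBasis b0 hrank i).2
    rw [Submodule.smithNormalFormBotBasis_def] at h1
    have h2 := Submodule.mem_map_of_mem (f := I.subtype) h1
    rw [Submodule.map_smul'', Submodule.map_top, Submodule.range_subtype, smul_eq_mul] at h2
    exact h2
  choose q hq using hq
  have hm : ∀ i, ∃ u : Fin (Module.finrank O I) → O, a i * a i = ∑ j, u j • a j :=
    fun i => haspan _ (Ideal.mul_mem_left _ _ (haI i))
  choose m hm using hm
  let S : SC (Fin (Module.finrank O I)) O :=
    { B := Matrix.of fun i j => (if i = j then C (c i) else 0) - (∑ k, C (q i j k) * X k) -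
        C (m i j) * X i
      hB := fun i j => by
        have hC : ∀ x : O, (C x : MvPolynomial (Fin (Module.finrank O I)) O) ∈ Fl _ O 1 :=
          fun x => monomial_mem_Fl (b := 0) (by simp) x
        rw [Matrix.of_apply]
        refine sub_mem (sub_mem ?_ (sum_mem fun k _ => ?_)) ?_
        · split_ifs
          · exact Fl_mono (by norm_num) (hC _)
          · exact zero_mem _
        · exact Fl_mul (m := 1) (n := 1) (hC _) (X_mem_Fl _)
        · exact Fl_mul (m := 1) (n := 1) (hC _) (X_mem_Fl _) }
  have hA : ∀ i j, S.A i j = (if i = j then X i ^ 2 else 0) + ((if i = j then C (c i) else 0) -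
      (∑ k, C (q i j k) * X k) - C (m i j) * X i) := by
    intro i j
    unfold SC.A
    rw [Matrix.add_apply, Matrix.diagonal_apply]
    rfl
  have hD : coeff 0 S.D = ∏ i, c i := by
    have h1 : coeff 0 S.D = (constantCoeff (R := O)) S.A.det := rfl
    rw [h1, RingHom.map_det]
    have h2 : (constantCoeff (R := O)).mapMatrix S.A = Matrix.diagonal c := by
      ext i j
      rw [RingHom.mapMatrix_apply, Matrix.map_apply, hA, Matrix.diagonal_apply]
      split_ifs with hij
      · simp
      · simp
    rw [h2, Matrix.det_diagonal]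
  refine ⟨_, S, a, fun i => ?_, ?_, fun i => ?_, ?_, ?_, fun u hu => ?_⟩
  · have := haI i
    rwa [hI, RingHom.mem_ker] at this
  · intro t
    have h1 : t - algebraMap O T (π t) ∈ I := by
      rw [hI, RingHom.mem_ker, map_sub, AlgHom.commutes]
      exact sub_self _
    obtain ⟨u, hu⟩ := haspan _ h1
    refine ⟨C (π t) + ∑ j, C (u j) * X j, ?_⟩
    rw [map_add, map_sum, aeval_C]
    have h2 : ∑ j, aeval a (C (u j) * X j) = ∑ j, u j • a j :=
      Finset.sum_congr rfl fun j _ => by rw [map_mul, aeval_C, aeval_X, ← Algebra.smul_def]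
    rw [h2, ← hu]
    ring
  · have h1 : aeval a (S.f i) = ∑ j, ((if i = j then a i ^ 2 else 0) +
        ((if i = j then algebraMap O T (c i) else 0) - (∑ k, q i j k • a k) -
          m i j • a i)) * a j := by
      unfold SC.f
      rw [map_sum]
      refine Finset.sum_congr rfl fun j _ => ?_
      rw [map_mul, aeval_X, hA]
      congr 1
      rw [map_add, map_sub, map_sub, map_sum]
      have e1 : ∑ k, aeval a (C (q i j k) * X k) = ∑ k, q i j k • a k :=
        Finset.sum_congr rfl fun k _ => by rw [map_mul, aeval_C, aeval_X, ← Algebra.smul_def]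
      rw [e1, map_mul, aeval_C, aeval_X, ← Algebra.smul_def]
      congr 2
      · split_ifs <;> simp
      · congr 1
        split_ifs <;> simp
    rw [h1]
    simp only [add_mul, sub_mul, Finset.sum_add_distrib, Finset.sum_sub_distrib, ite_mul, zero_mul,
      Finset.sum_ite_eq, Finset.mem_univ, if_true]
    have h2 : ∑ j, (∑ k, q i j k • a k) * a j = c i • a i := by
      rw [hq i]
      refine Finset.sum_congr rfl fun j _ => ?_
      rw [Finset.sum_mul]
      exact Finset.sum_congr rfl fun k _ => by rw [smul_mul_assoc]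
    have h3 : ∑ j, m i j • a i * a j = a i * (a i * a i) := by
      rw [hm i, Finset.mul_sum]
      exact Finset.sum_congr rfl fun k _ => by rw [smul_mul_assoc, mul_smul_comm]
    rw [h2, h3, Algebra.smul_def]
    ring
  · rw [hD]
    exact Finset.prod_ne_zero_iff.2 fun i _ => Submodule.smithNormalFormCoeffs_ne_zero b0 hrank i
  · rw [hD, ← hlen, hls]
  · have h1 : (∑ j, u j • b' j : I) ∈ (I • ⊤ : Submodule T I) := by
      have h2 : ((∑ j, u j • b' j : I) : T) ∈ Submodule.map I.subtype (I • ⊤ : Submodule T I) := by
        rw [Submodule.map_smul'', Submodule.map_top, Submodule.range_subtype, smul_eq_mul,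
          AddSubmonoidClass.coe_finset_sum]
        exact hu
      obtain ⟨w, hw, hw2⟩ := h2
      have h3 : w = ∑ j, u j • b' j := Subtype.ext hw2
      rwa [← h3]
    let bN := Submodule.smithNormalFormBotBasis b0 hrank
    refine ⟨fun i => bN.repr ⟨_, h1⟩ i, fun j => ?_⟩
    have h4 : ∀ i, coeff 0 (S.A i j) = if i = j then c i else 0 := by
      intro i
      rw [hA, ← constantCoeff_eq]
      split_ifs with hij
      · simp
      · simp
    simp only [h4, mul_ite, mul_zero, Finset.sum_ite_eq', Finset.mem_univ, if_true]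
    have h5 := congrArg (Subtype.val) (bN.sum_repr ⟨_, h1⟩)
    rw [AddSubmonoidClass.coe_finset_sum] at h5
    have h6 : ∑ i, (bN.repr ⟨_, h1⟩ i * c i) • b' i = ∑ i, u i • b' i := by
      refine Eq.trans ?_ h5
      refine Finset.sum_congr rfl fun i _ => ?_
      change _ = bN.repr ⟨_, h1⟩ i • ((bN i : N) : I)
      rw [show ((bN i : N) : I) = c i • b' i from
        Submodule.smithNormalFormBotBasis_def b0 hrank i, mul_smul]
    have h7 := congrArg (fun w => b'.repr w j) h6
    simp only [Module.Basis.repr_sum_self] at h7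
    exact h7.symm

end Fermat.Agent.NumC
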