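import Fermat.Agent.NumC.Lift
import Fermat.Agent.NumC.Res
import Fermat.Agent.NumC.Gram

/-!
# The numerical criterion
-/

set_option autoImplicit false

noncomputable section

namespace Fermat.Agent.RT

open MvPolynomial IsDiscreteValuationRing Fermat.Agent.NumC

section Faithful

variable {O : Type} [CommRing O] [IsDomain O] [IsDiscreteValuationRing O]
  {R : Type} [CommRing R] [Algebra O R] (H : Type) [AddCommGroup H] [Module O H]
  [Module.Finite O H] [Module.Free O H] [Module R H] [IsScalarTower O R H]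

/-- the quotient acting faithfully -/
def actHom : (R ⧸ Module.annihilator R H) →ₐ[O] Module.End O H :=
  Ideal.Quotient.liftₐ (Module.annihilator R H) (Algebra.lsmul O O H) fun r hr => by
    ext x
    exact Module.mem_annihilator.1 hr x

theorem actHom_injective : Function.Injective (actHom (O := O) (R := R) H) := by
  rw [injective_iff_map_eq_zero]
  intro t ht
  obtain ⟨r, rfl⟩ := Ideal.Quotient.mk_surjective t
  rw [Ideal.Quotient.eq_zero_iff_mem, Module.mem_annihilator]
  intro x
  exact LinearMap.congr_fun ht x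

theorem finite_quot_ann : Module.Finite O (R ⧸ Module.annihilator R H) :=
  Module.Finite.of_injective (actHom (O := O) (R := R) H).toLinearMap (actHom_injective H)

theorem smul_eq_zero_quot {c : O} {t : R ⧸ Module.annihilator R H} (h : c • t = 0) :
    c = 0 ∨ t = 0 := by
  by_cases hc : c = 0
  · exact Or.inl hc
  · right
    apply actHom_injective (O := O) (R := R) H
    rw [map_zero]
    have h1 := congrArg (actHom (O := O) (R := R) H) h
    rw [map_smul, map_zero] at h1
    ext x
    have h2 := LinearMap.congr_fun h1 x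
    rw [LinearMap.smul_apply, LinearMap.zero_apply] at h2
    exact (smul_eq_zero.1 h2).resolve_left hc

theorem free_quot_ann : Module.Free O (R ⧸ Module.annihilator R H) := by
  haveI := finite_quot_ann (O := O) (R := R) H
  haveI : Module.IsTorsionFree O (R ⧸ Module.annihilator R H) :=
    Module.isTorsionFree_iff_smul_eq_zero.2 fun _ _ h => smul_eq_zero_quot H h
  exact Module.free_of_finite_type_torsion_free'

end Faithful

theorem aeval_mul_D {O : Type} [CommRing O] {n : ℕ} (S : SC (Fin n) O) {T : Type} [CommRing T]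
    [Algebra O T] (π : T →ₐ[O] O) {a : Fin n → T} (ha : ∀ i, π (a i) = 0)
    (hsurj : Function.Surjective (aeval a : MvPolynomial (Fin n) O →ₐ[O] T))
    (hfa : ∀ i, aeval a (S.f i) = 0) {t : T} (ht : π t = 0) : t * aeval a S.D = 0 := by
  obtain ⟨g, rfl⟩ := hsurj t
  have haev : π (aeval a g) = coeff 0 g := by
    have h1 : (π.comp (aeval a) : MvPolynomial (Fin n) O →ₐ[O] O) = aeval (fun _ => (0 : O)) := by
      ext i
      rw [AlgHom.comp_apply, aeval_X, aeval_X, ha]
    have h2 := DFunLike.congr_fun h1 g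
    rw [AlgHom.comp_apply] at h2
    rw [h2, ← constantCoeff_eq]
    exact MvPolynomial.aeval_zero (S₁ := O) g
  rw [haev] at ht
  rw [← map_mul]
  apply S.aeval_J hfa
  obtain ⟨c, rfl⟩ := Ideal.mem_span_range_iff_exists_fun.1 (mem_of_coeff_zero ht)
  rw [Finset.sum_mul]
  refine sum_mem fun i _ => ?_
  rw [mul_assoc]
  exact Ideal.mul_mem_left _ _ (S.X_mul_D i)

theorem pi_D {O : Type} [CommRing O] {n : ℕ} (g : MvPolynomial (Fin n) O) {T : Type} [CommRing T]
    [Algebra O T] (π : T →ₐ[O] O) {a : Fin n → T} (ha : ∀ i, π (a i) = 0) :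
    π (aeval a g) = coeff 0 g := by
  have h1 : (π.comp (aeval a) : MvPolynomial (Fin n) O →ₐ[O] O) = aeval (fun _ => (0 : O)) := by
    ext i
    rw [AlgHom.comp_apply, aeval_X, aeval_X, ha]
  have h2 := DFunLike.congr_fun h1 g
  rw [AlgHom.comp_apply] at h2
  rw [h2, ← constantCoeff_eq]
  exact MvPolynomial.aeval_zero (S₁ := O) g

/-- comparison of cotangent spaces -/
theorem le_sq_of_length {O : Type} [CommRing O] [IsDomain O] [IsDiscreteValuationRing O]
    {R : Type} [CommRing R] [Algebra O R] (π : R →ₐ[O] O) (I : Ideal R)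
    (πT : (R ⧸ I) →ₐ[O] O) (hπ : ∀ r, πT (Ideal.Quotient.mk I r) = π r) :
    Module.length O (RingHom.ker πT).Cotangent ≤ Module.length O (RingHom.ker π).Cotangent ∧
    (Module.length O (RingHom.ker π).Cotangent ≠ ⊤ →
      Module.length O (RingHom.ker π).Cotangent ≤ Module.length O (RingHom.ker πT).Cotangent →
      I ≤ RingHom.ker π * RingHom.ker π) := by
  have hle : RingHom.ker π ≤ (RingHom.ker πT).comap (Ideal.Quotient.mkₐ O I) := fun r hr => by
    rw [Ideal.mem_comap, RingHom.mem_ker]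
    exact (hπ r).trans hr
  let φ := Ideal.mapCotangent (RingHom.ker π) (RingHom.ker πT) (Ideal.Quotient.mkₐ O I) hle
  have hφ : Function.Surjective φ := by
    intro z
    obtain ⟨⟨t, ht⟩, rfl⟩ := (RingHom.ker πT).toCotangent_surjective z
    obtain ⟨r, rfl⟩ := Ideal.Quotient.mk_surjective t
    refine ⟨(RingHom.ker π).toCotangent ⟨r, ?_⟩, ?_⟩
    · rw [RingHom.mem_ker] at ht ⊢
      rw [← ht]
      exact (hπ r).symm
    · exact Ideal.mapCotangent_toCotangent _ _ _ _ _
  refine ⟨Module.length_le_of_surjective _ hφ, fun hfin hle2 => ?_⟩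
  have h1 := Module.length_eq_add_of_exact (LinearMap.ker φ).subtype φ
    (Submodule.subtype_injective _) hφ (LinearMap.exact_subtype_ker_map φ)
  have h2 : Module.length O (LinearMap.ker φ) = 0 := by
    rw [h1] at hle2 hfin
    have h3 : Module.length O (RingHom.ker πT).Cotangent ≠ ⊤ := fun h => hfin (by rw [h, add_top])
    have h4 : Module.length O (LinearMap.ker φ) + Module.length O (RingHom.ker πT).Cotangent ≤
      0 + Module.length O (RingHom.ker πT).Cotangent := by rwa [zero_add]
    exact le_antisymm ((ENat.add_le_add_iff_right h3).1 h4) zero_le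
  rw [Module.length_eq_zero_iff] at h2
  intro r hr
  have hrp : r ∈ RingHom.ker π := by
    rw [RingHom.mem_ker]
    change π r = 0
    rw [← hπ, Ideal.Quotient.eq_zero_iff_mem.2 hr, map_zero]
  have h3 : φ ((RingHom.ker π).toCotangent ⟨r, hrp⟩) = 0 := by
    have e1 : φ ((RingHom.ker π).toCotangent ⟨r, hrp⟩) = (RingHom.ker πT).toCotangent
      ⟨Ideal.Quotient.mkₐ O I r, hle hrp⟩ := Ideal.mapCotangent_toCotangent _ _ _ _ _
    rw [e1, Ideal.toCotangent_eq_zero]
    have : Ideal.Quotient.mkₐ O I r = 0 := Ideal.Quotient.eq_zero_iff_mem.2 hr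
    change Ideal.Quotient.mkₐ O I r ∈ RingHom.ker πT ^ 2
    rw [this]
    exact zero_mem _
  have h4 := Subsingleton.elim (⟨_, h3⟩ : LinearMap.ker φ) 0
  have h5 := congrArg Subtype.val h4
  have h6 := (Ideal.toCotangent_eq_zero _ _).1 h5
  rwa [pow_two] at h6

/-- **(N1)** the numerical criterion -/
theorem n1 : N1St := by
  intro O _ _ _ R _ _ _ _ π H _ _ _ _ _ _ d hd C hfin hlen
  obtain ⟨I, hI⟩ : ∃ I, I = Module.annihilator R H := ⟨_, rfl⟩
  have hIp : ∀ r ∈ Module.annihilator R H, π r = 0 := by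
    intro r hr
    have h1 := Module.mem_annihilator.1 hr (C.e ⟨0, hd⟩)
    have h2 := (C.mem_span (C.e ⟨0, hd⟩)).1 (Submodule.subset_span ⟨_, rfl⟩)
      (r - algebraMap O R (π r)) (by rw [map_sub, AlgHom.commutes]; exact sub_self _)
    rw [sub_smul, algebraMap_smul, h1, zero_sub, neg_eq_zero] at h2
    exact (smul_eq_zero.1 h2).resolve_right (C.indep.ne_zero _)
  haveI := finite_quot_ann (O := O) (R := R) H
  haveI := free_quot_ann (O := O) (R := R) H
  let πT : (R ⧸ Module.annihilator R H) →ₐ[O] O := Ideal.Quotient.liftₐ _ π hIp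
  have hπT : ∀ r, πT (Ideal.Quotient.mk _ r) = π r := fun r => rfl
  obtain ⟨hl1, hl2⟩ := le_sq_of_length π (Module.annihilator R H) πT hπT
  have hfinT : Module.length O (RingHom.ker πT).Cotangent ≠ ⊤ := fun h => hfin
    (top_le_iff.1 (h ▸ hl1))
  obtain ⟨n, S, a, ha, hsurj, hfa, hD0, hDval, -⟩ := exists_resolution πT hfinT
  choose y hy using fun i => Ideal.Quotient.mk_surjective (I := Module.annihilator R H) (a i)
  have hmk : ∀ g : MvPolynomial (Fin n) O,
      Ideal.Quotient.mk (Module.annihilator R H) (aeval y g) = aeval a g := by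
    intro g
    have h1 : ((Ideal.Quotient.mkₐ O (Module.annihilator R H)).comp (aeval y) :
        MvPolynomial (Fin n) O →ₐ[O] _) = aeval a := by
      ext i
      rw [AlgHom.comp_apply, aeval_X, aeval_X]
      exact hy i
    exact DFunLike.congr_fun h1 g
  have hy0 : ∀ i, π (y i) = 0 := fun i => by rw [← hπT, hy, ha]
  obtain ⟨δ, hδ⟩ : ∃ δ, δ = aeval y S.D := ⟨_, rfl⟩
  have hδ1 : ∀ r : R, π r = 0 → ∀ x : H, r • δ • x = 0 := by
    intro r hr x
    have h1 : r * δ ∈ Module.annihilator R H := by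
      rw [← Ideal.Quotient.eq_zero_iff_mem, map_mul, hδ, hmk]
      exact aeval_mul_D S πT ha hsurj hfa ((hπT r).trans hr)
    rw [← mul_smul]
    exact Module.mem_annihilator.1 h1 x
  have hδ2 : π δ = coeff 0 S.D := by rw [hδ]; exact pi_D _ π hy0
  have hval : (d : ℕ∞) * addVal O (π δ) ≤ addVal O C.gram := by
    rw [hδ2, hDval]
    exact (by gcongr : (d : ℕ∞) * Module.length O (RingHom.ker πT).Cotangent ≤
      d * Module.length O (RingHom.ker π).Cotangent).trans hlen
  have hle3 : Module.length O (RingHom.ker π).Cotangent ≤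
      Module.length O (RingHom.ker πT).Cotangent := by
    have h1 := hlen.trans (C.val_le hδ1)
    rw [hδ2, hDval] at h1
    obtain ⟨u, hu⟩ := ENat.ne_top_iff_exists.1 hfin
    obtain ⟨v, hv⟩ := ENat.ne_top_iff_exists.1 hfinT
    rw [← hu, ← hv] at h1 ⊢
    have h2 : d * u ≤ d * v := by exact_mod_cast h1
    exact_mod_cast Nat.le_of_mul_le_mul_left h2 hd
  have hI2 := hl2 hfin hle3
  obtain ⟨ϖ, hϖ⟩ := IsDiscreteValuationRing.exists_irreducible O
  have hϖm : IsLocalRing.maximalIdeal O = Ideal.span {ϖ} := hϖ.maximalIdeal_eq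
  obtain ⟨x, hx⟩ := C.exists_not_dvd hδ1 (by rw [hδ2]; exact hD0) hd hval hϖm
  letI : Module (R ⧸ Module.annihilator R H) H := Module.quotientAnnihilator
  haveI : IsScalarTower O (R ⧸ Module.annihilator R H) H := ⟨fun c t x => by
    obtain ⟨r, rfl⟩ := Ideal.Quotient.mk_surjective t
    exact smul_assoc c r x⟩
  have hx' : ¬ ∃ y : H, aeval a S.D • x = ϖ • y := by
    rintro ⟨v, hv⟩
    apply hx
    refine ⟨v, ?_⟩
    rw [← hv, ← hmk, ← hδ]
    rfl
  obtain ⟨s, hs, hsC⟩ := S.exists_unit_ker (a := a) hϖm hfa (fun t ht => by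
    rw [← Algebra.smul_def] at ht
    exact (smul_eq_zero_quot H ht).resolve_left hϖ.ne_zero)
    (fun z hz => S.mem_Z_of_act hfa hϖm hx' ⟨0, by rw [hz, zero_smul, smul_zero]⟩)
  refine lift_bot π (Module.annihilator R H) S y hy0 (fun i => ?_) (fun r => ?_)
    (fun g hg => ⟨s, hs, hsC g ?_⟩) hI2 hD0
  · rw [← Ideal.Quotient.eq_zero_iff_mem, hmk, hfa]
  · obtain ⟨g, hg⟩ := hsurj (Ideal.Quotient.mk _ r)
    refine ⟨g, ?_⟩
    rw [← Ideal.Quotient.eq, hmk, hg]
  · rw [← hmk, Ideal.Quotient.eq_zero_iff_mem]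
    exact hg

end Fermat.Agent.RT
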