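import Fermat.Agent.NumC.N1
import Fermat.Agent.NumC.LiftGen
import Fermat.Agent.TWPatch.Eval
import Fermat.Agent.Patching.PowerSeriesRegular

/-!
# The minimal level: the congruence module of a complete intersection
-/

set_option autoImplicit false

noncomputable section

namespace Fermat.Agent.RT

open IsDiscreteValuationRing Fermat.Agent.NumC Fermat.Agent.TWPatch

section PS

variable {O : Type*} [CommRing O]

theorem isLocalHom_C [IsLocalRing O] (r : ℕ) :
    IsLocalHom (MvPowerSeries.C : O →+* MvPowerSeries (Fin r) O) := ⟨fun a ha => by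
  have := ha.map (MvPowerSeries.constantCoeff (σ := Fin r) (R := O))
  rwa [MvPowerSeries.constantCoeff_C] at this⟩

theorem isLocalHom_constantCoeff (r : ℕ) :
    IsLocalHom (MvPowerSeries.constantCoeff : MvPowerSeries (Fin r) O →+* O) := ⟨fun _ ha =>
  MvPowerSeries.isUnit_iff_constantCoeff.2 ha⟩

/-- coefficient of `X j` in a linear combination of the variables -/
theorem coeff_sum_mul_X {r : ℕ} (w : Fin r → MvPowerSeries (Fin r) O) (j : Fin r) :
    MvPowerSeries.coeff (Finsupp.single j 1) (∑ i, w i * MvPowerSeries.X i) =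
      MvPowerSeries.constantCoeff (w j) := by
  classical
  rw [map_sum, Finset.sum_eq_single j]
  · have h := MvPowerSeries.coeff_add_mul_monomial (0 : Fin r →₀ ℕ) (Finsupp.single j 1) (w j) (1 : O)
    rw [zero_add, mul_one] at h
    exact h
  · intro i _ hij
    have h := MvPowerSeries.coeff_mul_monomial (Finsupp.single j 1) (Finsupp.single i 1) (w i) (1 : O)
    rw [if_neg] at h
    · exact h
    · intro hle
      have := hle i
      rw [Finsupp.single_eq_same, Finsupp.single_eq_of_ne (by exact hij)] at this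
      omega
  · intro h
    exact absurd (Finset.mem_univ j) h

end PS

/-- recentring a presentation -/
theorem exists_recentre {O : Type} [CommRing O] [CNL O] {T : Type} [CommRing T] [CNL T]
    [Algebra O T] {r : ℕ} (ψ : MvPowerSeries (Fin r) O →+* T) [IsLocalHom ψ]
    (g : Fin r → MvPowerSeries (Fin r) O)
    (hψs : Function.Surjective ψ) (hψC : ∀ a, ψ (MvPowerSeries.C a) = algebraMap O T a)
    (hker : RingHom.ker ψ = Ideal.span (Set.range g))
    (c : Fin r → O) (hc : ∀ j, c j ∈ IsLocalRing.maximalIdeal O) :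
    ∃ (ψ' : MvPowerSeries (Fin r) O →+* T) (g' : Fin r → MvPowerSeries (Fin r) O),
      IsLocalHom ψ' ∧ Function.Surjective ψ' ∧ (∀ a, ψ' (MvPowerSeries.C a) = algebraMap O T a) ∧
      RingHom.ker ψ' = Ideal.span (Set.range g') ∧
      ∀ j, ψ' (MvPowerSeries.X j) = ψ (MvPowerSeries.X j) - algebraMap O T (c j) := by
  haveI := isLocalHom_C (O := O) r
  have hX : ∀ (ε : O) (j : Fin r), (MvPowerSeries.X j + MvPowerSeries.C (ε * c j) :
      MvPowerSeries (Fin r) O) ∈ IsLocalRing.maximalIdeal (MvPowerSeries (Fin r) O) := by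
    intro ε j
    rw [mvps_mem_maximalIdeal, map_add, MvPowerSeries.constantCoeff_X, zero_add,
      MvPowerSeries.constantCoeff_C]
    exact Ideal.mul_mem_left _ _ (hc j)
  obtain ⟨Θ, hΘl, hΘC, hΘX⟩ := exists_evalMv (MvPowerSeries.C : O →+* MvPowerSeries (Fin r) O)
    _ (hX (-1))
  obtain ⟨Θ', hΘ'l, hΘ'C, hΘ'X⟩ := exists_evalMv (MvPowerSeries.C : O →+* MvPowerSeries (Fin r) O)
    _ (hX 1)
  haveI := hΘl
  haveI := hΘ'l
  have h1 : Θ.comp Θ' = RingHom.id _ := by
    refine mv_hom_ext _ _ (fun a => ?_) (fun j => ?_)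
    · rw [RingHom.comp_apply, hΘ'C, hΘC]; rfl
    · rw [RingHom.comp_apply, hΘ'X, map_add, hΘX, hΘC, RingHom.id_apply, add_assoc, ← map_add]
      have : -1 * c j + 1 * c j = 0 := by ring
      rw [this, map_zero, add_zero]
  have h2 : Θ'.comp Θ = RingHom.id _ := by
    refine mv_hom_ext _ _ (fun a => ?_) (fun j => ?_)
    · rw [RingHom.comp_apply, hΘC, hΘ'C]; rfl
    · rw [RingHom.comp_apply, hΘX, map_add, hΘ'X, hΘ'C, RingHom.id_apply, add_assoc, ← map_add]
      have : 1 * c j + -1 * c j = 0 := by ring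
      rw [this, map_zero, add_zero]
  have h1' : ∀ x, Θ (Θ' x) = x := fun x => RingHom.congr_fun h1 x
  have h2' : ∀ x, Θ' (Θ x) = x := fun x => RingHom.congr_fun h2 x
  refine ⟨ψ.comp Θ, fun k => Θ' (g k), inferInstance, hψs.comp fun x => ⟨Θ' x, h1' x⟩,
    fun a => by rw [RingHom.comp_apply, hΘC, hψC], ?_, fun j => ?_⟩
  · apply le_antisymm
    · intro x hx
      rw [RingHom.mem_ker, RingHom.comp_apply] at hx
      have h3 : Θ x ∈ Ideal.span (Set.range g) := by rw [← hker]; exact hx
      have h4 := Ideal.mem_map_of_mem Θ' h3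
      rw [h2', Ideal.map_span, ← Set.range_comp] at h4
      exact h4
    · rw [Ideal.span_le]
      rintro _ ⟨k, rfl⟩
      change ψ (Θ (Θ' (g k))) = 0
      rw [h1']
      have : g k ∈ RingHom.ker ψ := by rw [hker]; exact Ideal.subset_span ⟨k, rfl⟩
      exact this
  · rw [RingHom.comp_apply, hΘX, map_add, hψC, neg_one_mul, map_neg, sub_eq_add_neg]

theorem isLocalHom_of_surj {A B : Type*} [CommRing A] [IsLocalRing A] [CommRing B] [IsLocalRing B]
    (f : A →+* B) (hf : Function.Surjective f) : IsLocalHom f := ⟨fun x hx => by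
  by_contra h
  have h1 : f x ∈ IsLocalRing.maximalIdeal B := by
    rw [← IsLocalRing.map_maximalIdeal_of_surjective f hf]
    exact Ideal.mem_map_of_mem f ((IsLocalRing.mem_maximalIdeal _).2 h)
  exact (IsLocalRing.mem_maximalIdeal _).1 h1 hx⟩

section CI

variable {O : Type} [CommRing O] [IsDomain O] [IsDiscreteValuationRing O] [CNL O]
  {T : Type} [CommRing T] [CNL T] [Algebra O T] (π : T →ₐ[O] O)

/-- the linear parts of the equations of a complete intersection are independent -/
theorem det_ne_zero (hfin : Module.length O (RingHom.ker π).Cotangent ≠ ⊤) {r : ℕ}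
    (ψ : MvPowerSeries (Fin r) O →+* T) (g : Fin r → MvPowerSeries (Fin r) O)
    (hψs : Function.Surjective ψ) (hψC : ∀ a, ψ (MvPowerSeries.C a) = algebraMap O T a)
    (hker : RingHom.ker ψ = Ideal.span (Set.range g))
    (hκ : ∀ x, π (ψ x) = MvPowerSeries.constantCoeff x)
    (A : Matrix (Fin r) (Fin r) (MvPowerSeries (Fin r) O))
    (hA : ∀ k, g k = ∑ j, A k j * MvPowerSeries.X j) :
    MvPowerSeries.constantCoeff A.det ≠ 0 := by
  classical
  obtain ⟨𝔛, h𝔛⟩ : ∃ 𝔛, 𝔛 = Ideal.span (Set.range fun i : Fin r =>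
    (MvPowerSeries.X i : MvPowerSeries (Fin r) O)) := ⟨_, rfl⟩
  have hα : ∀ x : MvPowerSeries (Fin r) O, MvPowerSeries.constantCoeff x = 0 → x ∈ 𝔛 := fun x hx => by
    rw [h𝔛]
    exact Patching.mem_span_X_of_constantCoeff_eq_zero r x hx
  have hker𝔛 : RingHom.ker π ≤ 𝔛.map ψ := by
    intro t ht
    obtain ⟨x, rfl⟩ := hψs t
    rw [RingHom.mem_ker] at ht
    exact Ideal.mem_map_of_mem ψ (hα x ((hκ x).symm.trans ht))
  have hN : ∀ j : Fin r, ∃ N : O, N ≠ 0 ∧ ∃ E : Fin r → MvPowerSeries (Fin r) O,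
      ∀ k, (if j = k then N else 0) =
        ∑ i, MvPowerSeries.constantCoeff (E i) * MvPowerSeries.constantCoeff (A i k) := by
    intro j
    have hxj : ψ (MvPowerSeries.X j) ∈ RingHom.ker π := by
      rw [RingHom.mem_ker]
      exact (hκ _).trans (MvPowerSeries.constantCoeff_X j)
    have htor := isTorsion_of_length hfin
    obtain ⟨⟨N, hN0⟩, hN⟩ := @htor ((RingHom.ker π).toCotangent ⟨_, hxj⟩)
    have hN1 : N ≠ 0 := nonZeroDivisors.ne_zero hN0
    have h1 : (RingHom.ker π).toCotangent (N • ⟨_, hxj⟩) = 0 := by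
      rw [LinearMap.map_smul_of_tower]
      exact hN
    rw [Ideal.toCotangent_eq_zero] at h1
    have h2 : algebraMap O T N * ψ (MvPowerSeries.X j) ∈ (𝔛 * 𝔛).map ψ := by
      rw [Ideal.map_mul]
      have h3 : algebraMap O T N * ψ (MvPowerSeries.X j) ∈ RingHom.ker π * RingHom.ker π := by
        rw [← pow_two, ← Algebra.smul_def]
        exact h1
      exact Ideal.mul_mono hker𝔛 hker𝔛 h3
    obtain ⟨y, hy, hy2⟩ := (Ideal.mem_map_iff_of_surjective ψ hψs).1 h2
    have h3 : MvPowerSeries.C N * MvPowerSeries.X j - y ∈ Ideal.span (Set.range g) := by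
      rw [← hker, RingHom.mem_ker, map_sub, map_mul, hψC, hy2, sub_self]
    obtain ⟨E, hE⟩ := Ideal.mem_span_range_iff_exists_fun.1 h3
    rw [← smul_eq_mul] at hy
    nth_rewrite 2 [h𝔛] at hy
    obtain ⟨c, hc, hc2⟩ := (Submodule.mem_ideal_smul_span_iff_exists_sum 𝔛
      (fun i : Fin r => (MvPowerSeries.X i : MvPowerSeries (Fin r) O)) y).1 hy
    rw [Finsupp.sum_fintype _ _ fun j => by rw [zero_smul]] at hc2
    refine ⟨N, hN1, E, fun k => ?_⟩
    have h4 : ∑ k, ((if j = k then MvPowerSeries.C N else 0) - c k - ∑ i, E i * A i k) *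
        MvPowerSeries.X k = 0 := by
      simp only [sub_mul, Finset.sum_sub_distrib, ite_mul, zero_mul, Finset.sum_ite_eq,
        Finset.mem_univ, if_true]
      have h5 : ∑ k, c k * MvPowerSeries.X k = y := hc2
      have h6 : ∑ k, (∑ i, E i * A i k) * MvPowerSeries.X k = ∑ i, E i * g i := by
        simp only [hA, Finset.mul_sum, Finset.sum_mul]
        rw [Finset.sum_comm]
        exact Finset.sum_congr rfl fun i _ => Finset.sum_congr rfl fun k _ => by ring
      rw [h5, h6, hE, sub_self]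
    have h5 := congrArg (MvPowerSeries.coeff (Finsupp.single k 1)) h4
    rw [coeff_sum_mul_X, map_zero, map_sub, map_sub, map_sum] at h5
    have h6 : MvPowerSeries.constantCoeff (c k) = 0 := by
      have h7 := hc k
      rw [h𝔛] at h7
      obtain ⟨b, hb⟩ := Ideal.mem_span_range_iff_exists_fun.1 h7
      rw [← hb, map_sum]
      exact Finset.sum_eq_zero fun i _ => by rw [map_mul, MvPowerSeries.constantCoeff_X, mul_zero]
    rw [h6, sub_zero, sub_eq_zero] at h5
    simp only [map_mul] at h5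
    rw [← h5]
    split_ifs
    · rw [MvPowerSeries.constantCoeff_C]
    · rw [map_zero]
  choose N hN0 E hE using hN
  intro h0
  have h1 : (Matrix.of fun j i => MvPowerSeries.constantCoeff (E j i)) *
      (MvPowerSeries.constantCoeff (σ := Fin r) (R := O)).mapMatrix A = Matrix.diagonal N := by
    ext j k
    rw [Matrix.mul_apply, Matrix.diagonal_apply, hE]
    rfl
  have h2 := congrArg Matrix.det h1
  rw [Matrix.det_mul, ← RingHom.map_det, h0, mul_zero, Matrix.det_diagonal] at h2
  exact Finset.prod_ne_zero_iff.2 (fun i _ => hN0 i) h2.symm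

set_option maxHeartbeats 1000000 in
/-- a complete intersection is given by the special equations -/
theorem mem_span_of_ci (hfin : Module.length O (RingHom.ker π).Cotangent ≠ ⊤) {r : ℕ}
    (ψ : MvPowerSeries (Fin r) O →+* T) [IsLocalHom ψ] (g : Fin r → MvPowerSeries (Fin r) O)
    (hψs : Function.Surjective ψ) (hψC : ∀ a, ψ (MvPowerSeries.C a) = algebraMap O T a)
    (hker : RingHom.ker ψ = Ideal.span (Set.range g))
    (hX : ∀ j, π (ψ (MvPowerSeries.X j)) = 0) {n : ℕ} (S : SC (Fin n) O) (a : Fin n → T)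
    (ha : ∀ i, π (a i) = 0)
    (hsurj : Function.Surjective (MvPolynomial.aeval a : MvPolynomial (Fin n) O →ₐ[O] T))
    (hfa : ∀ i, MvPolynomial.aeval a (S.f i) = 0)
    (hL : ∀ u : Fin n → O, ∑ j, u j • a j ∈ RingHom.ker π * RingHom.ker π →
      ∃ e : Fin n → O, ∀ j, u j = ∑ i, e i * MvPolynomial.coeff 0 (S.A i j))
    (z : MvPolynomial (Fin n) O) (hz : MvPolynomial.aeval a z = 0) :
    (z : MvPowerSeries (Fin n) O) ∈
      Ideal.span (Set.range fun i => (S.f i : MvPowerSeries (Fin n) O)) := by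
  classical
  haveI halg : IsLocalHom (algebraMap O T) := ⟨fun x hx => by
    have := hx.map (π : T →+* O)
    rwa [show (π : T →+* O) (algebraMap O T x) = x from π.commutes x] at this⟩
  have hπs : Function.Surjective (π : T →+* O) := fun x => ⟨algebraMap O T x, π.commutes x⟩
  haveI hπl : IsLocalHom (π : T →+* O) := isLocalHom_of_surj _ hπs
  have ham : ∀ i, a i ∈ IsLocalRing.maximalIdeal T := by
    intro i
    rw [IsLocalRing.mem_maximalIdeal]
    intro h
    have := h.map (π : T →+* O)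
    rw [show (π : T →+* O) (a i) = 0 from ha i] at this
    exact not_isUnit_zero this
  obtain ⟨Φ, hΦl, hΦC, hΦX⟩ := exists_evalMv (algebraMap O T) a ham
  haveI := hΦl
  have hΦcoe : ∀ z : MvPolynomial (Fin n) O, Φ (z : MvPowerSeries (Fin n) O) =
      MvPolynomial.aeval a z := by
    intro z
    have h1 : Φ.comp (MvPolynomial.coeToMvPowerSeries.ringHom) =
        ((MvPolynomial.aeval a : MvPolynomial (Fin n) O →ₐ[O] T) : MvPolynomial (Fin n) O →+* T) := by
      refine MvPolynomial.ringHom_ext (fun x => ?_) (fun i => ?_)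
      · rw [RingHom.comp_apply, MvPolynomial.coeToMvPowerSeries.ringHom_apply,
          MvPolynomial.coe_C, hΦC]
        exact (MvPolynomial.aeval_C a x).symm
      · rw [RingHom.comp_apply, MvPolynomial.coeToMvPowerSeries.ringHom_apply,
          MvPolynomial.coe_X, hΦX]
        exact (MvPolynomial.aeval_X a i).symm
    exact RingHom.congr_fun h1 z
  obtain ⟨J, hJ⟩ : ∃ J, J = Ideal.span (Set.range fun i =>
    (S.f i : MvPowerSeries (Fin n) O)) := ⟨_, rfl⟩
  rw [← hJ]
  have hJΦ : ∀ x ∈ J, Φ x = 0 := by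
    intro x hx
    rw [hJ] at hx
    obtain ⟨c, rfl⟩ := Ideal.mem_span_range_iff_exists_fun.1 hx
    rw [map_sum]
    exact Finset.sum_eq_zero fun i _ => by rw [map_mul, hΦcoe, hfa, mul_zero]
  have hJtop : J ≠ ⊤ := by
    intro h
    have := hJΦ 1 (by rw [h]; trivial)
    rw [map_one] at this
    exact one_ne_zero this
  haveI : CNL (MvPowerSeries (Fin n) O ⧸ J) := CNL.quotient hJtop
  let Φ' : MvPowerSeries (Fin n) O ⧸ J →+* T := Ideal.Quotient.lift J Φ hJΦ
  have hΦ'mk : ∀ x, Φ' (Ideal.Quotient.mk J x) = Φ x := fun x => Ideal.Quotient.lift_mk _ _ _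
  have hΦ's : Function.Surjective Φ' := by
    intro t
    obtain ⟨z, rfl⟩ := hsurj t
    exact ⟨Ideal.Quotient.mk J z, by rw [hΦ'mk, hΦcoe]⟩
  haveI hΦ'l : IsLocalHom Φ' := isLocalHom_of_surj Φ' hΦ's
  let πR : MvPowerSeries (Fin n) O ⧸ J →+* O := (π : T →+* O).comp Φ'
  have hπΦ : ∀ x, π (Φ x) = MvPowerSeries.constantCoeff x := by
    intro x
    haveI := isLocalHom_constantCoeff (O := O) n
    have h1 : (π : T →+* O).comp Φ = MvPowerSeries.constantCoeff := by
      refine mv_hom_ext _ _ (fun a => ?_) (fun j => ?_)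
      · rw [RingHom.comp_apply, hΦC, MvPowerSeries.constantCoeff_C]
        exact π.commutes a
      · rw [RingHom.comp_apply, hΦX, MvPowerSeries.constantCoeff_X]
        exact ha j
    exact RingHom.congr_fun h1 x
  have hκ : ∀ x, π (ψ x) = MvPowerSeries.constantCoeff x := by
    intro x
    haveI := isLocalHom_constantCoeff (O := O) r
    have h1 : (π : T →+* O).comp ψ = MvPowerSeries.constantCoeff := by
      refine mv_hom_ext _ _ (fun a => ?_) (fun j => ?_)
      · rw [RingHom.comp_apply, hψC, MvPowerSeries.constantCoeff_C]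
        exact π.commutes a
      · rw [RingHom.comp_apply, MvPowerSeries.constantCoeff_X]
        exact hX j
    exact RingHom.congr_fun h1 x
  -- the kernel lies in the square
  have hI2 : RingHom.ker Φ' ≤ RingHom.ker πR * RingHom.ker πR := by
    intro ρ hρ
    obtain ⟨h, rfl⟩ := Ideal.Quotient.mk_surjective ρ
    rw [RingHom.mem_ker, hΦ'mk] at hρ
    have h0 : MvPowerSeries.constantCoeff h = 0 := by rw [← hπΦ, hρ, map_zero]
    obtain ⟨u, hu⟩ := Ideal.mem_span_range_iff_exists_fun.1
      (Patching.mem_span_X_of_constantCoeff_eq_zero n h h0)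
    obtain ⟨u0, hu0⟩ : ∃ u0 : Fin n → O, u0 = fun j => MvPowerSeries.constantCoeff (u j) := ⟨_, rfl⟩
    have h1 : ∑ j, u0 j • a j = -∑ j, Φ (u j - MvPowerSeries.C (u0 j)) * a j := by
      have h2 : ∑ j, Φ (u j) * a j = 0 := by
        rw [← hρ, ← hu, map_sum]
        exact Finset.sum_congr rfl fun j _ => by rw [map_mul, hΦX]
      rw [eq_neg_iff_add_eq_zero, ← h2, ← Finset.sum_add_distrib]
      refine Finset.sum_congr rfl fun j _ => ?_
      rw [map_sub, hΦC, Algebra.smul_def]
      ring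
    have h2 : ∑ j, u0 j • a j ∈ RingHom.ker π * RingHom.ker π := by
      rw [h1]
      refine neg_mem (sum_mem fun j _ => Ideal.mul_mem_mul ?_ ?_)
      · rw [RingHom.mem_ker]
        refine (hπΦ _).trans ?_
        rw [map_sub, MvPowerSeries.constantCoeff_C, hu0, sub_self]
      · rw [RingHom.mem_ker]
        exact ha j
    obtain ⟨e, he⟩ := hL u0 h2
    have hXm : ∀ j : Fin n, Ideal.Quotient.mk J (MvPowerSeries.X j) ∈ RingHom.ker πR := by
      intro j
      rw [RingHom.mem_ker]
      change π (Φ' (Ideal.Quotient.mk J (MvPowerSeries.X j))) = 0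
      rw [hΦ'mk, hπΦ, MvPowerSeries.constantCoeff_X]
    have hmem : ∀ x : MvPowerSeries (Fin n) O, MvPowerSeries.constantCoeff x = 0 →
        Ideal.Quotient.mk J x ∈ RingHom.ker πR := by
      intro x hx
      rw [RingHom.mem_ker]
      change π (Φ' (Ideal.Quotient.mk J x)) = 0
      rw [hΦ'mk, hπΦ, hx]
    have hf0 : ∀ i, (S.f i : MvPowerSeries (Fin n) O) =
        ∑ j, (S.A i j : MvPowerSeries (Fin n) O) * MvPowerSeries.X j := by
      intro i
      have h3 : S.f i = ∑ j, S.A i j * MvPolynomial.X j := rfl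
      have h4 := congrArg (MvPolynomial.coeToMvPowerSeries.ringHom (σ := Fin n) (R := O)) h3
      rw [map_sum] at h4
      refine h4.trans (Finset.sum_congr rfl fun j _ => ?_)
      rw [map_mul, MvPolynomial.coeToMvPowerSeries.ringHom_apply,
        MvPolynomial.coeToMvPowerSeries.ringHom_apply, MvPolynomial.coe_X]
    have hcc : ∀ w : MvPolynomial (Fin n) O, MvPowerSeries.constantCoeff
        (w : MvPowerSeries (Fin n) O) = MvPolynomial.coeff 0 w := by
      intro w
      rw [← MvPowerSeries.coeff_zero_eq_constantCoeff_apply, MvPolynomial.coeff_coe]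
    have h3 : Ideal.Quotient.mk J h = Ideal.Quotient.mk J (∑ j, ((u j - MvPowerSeries.C (u0 j)) -
        ∑ i, MvPowerSeries.C (e i) * ((S.A i j : MvPowerSeries (Fin n) O) -
          MvPowerSeries.C (MvPolynomial.coeff 0 (S.A i j)))) * MvPowerSeries.X j) := by
      have h4 : h - (∑ j, ((u j - MvPowerSeries.C (u0 j)) -
          ∑ i, MvPowerSeries.C (e i) * ((S.A i j : MvPowerSeries (Fin n) O) -
            MvPowerSeries.C (MvPolynomial.coeff 0 (S.A i j)))) * MvPowerSeries.X j) =
          ∑ i, MvPowerSeries.C (e i) * (S.f i : MvPowerSeries (Fin n) O) := by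
        rw [← hu, ← Finset.sum_sub_distrib]
        have h5 : ∀ j, u j * MvPowerSeries.X j - ((u j - MvPowerSeries.C (u0 j)) -
            ∑ i, MvPowerSeries.C (e i) * ((S.A i j : MvPowerSeries (Fin n) O) -
              MvPowerSeries.C (MvPolynomial.coeff 0 (S.A i j)))) * MvPowerSeries.X j =
            (∑ i, MvPowerSeries.C (e i) * (S.A i j : MvPowerSeries (Fin n) O)) *
              MvPowerSeries.X j := by
          intro j
          have h6 : (MvPowerSeries.C (u0 j) : MvPowerSeries (Fin n) O) =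
              ∑ i, MvPowerSeries.C (e i) * MvPowerSeries.C (MvPolynomial.coeff 0 (S.A i j)) := by
            rw [he, map_sum]
            exact Finset.sum_congr rfl fun i _ => map_mul _ _ _
          simp only [mul_sub, Finset.sum_sub_distrib]
          rw [h6]
          ring
        rw [Finset.sum_congr rfl fun j _ => h5 j]
        simp only [Finset.sum_mul, hf0, Finset.mul_sum]
        rw [Finset.sum_comm]
        exact Finset.sum_congr rfl fun i _ => Finset.sum_congr rfl fun k _ => by ring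
      rw [Ideal.Quotient.eq, h4, hJ]
      exact sum_mem fun i _ => Ideal.mul_mem_left _ _ (Ideal.subset_span ⟨i, rfl⟩)
    rw [h3, map_sum]
    refine sum_mem fun j _ => ?_
    rw [map_mul]
    refine Ideal.mul_mem_mul (hmem _ ?_) (hXm j)
    rw [map_sub, map_sub, MvPowerSeries.constantCoeff_C, map_sum, hu0, sub_self, zero_sub,
      neg_eq_zero]
    refine Finset.sum_eq_zero fun i _ => ?_
    rw [map_mul, map_sub, hcc, MvPowerSeries.constantCoeff_C, MvPowerSeries.constantCoeff_C,
      sub_self, mul_zero]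
  -- the lift
  choose w hw using fun j => hΦ's (ψ (MvPowerSeries.X j))
  have hψX : ∀ j, ψ (MvPowerSeries.X j) ∈ IsLocalRing.maximalIdeal T := by
    intro j
    rw [IsLocalRing.mem_maximalIdeal]
    intro h
    have := h.map (π : T →+* O)
    rw [show (π : T →+* O) (ψ (MvPowerSeries.X j)) = 0 from hX j] at this
    exact not_isUnit_zero this
  have hwm : ∀ j, w j ∈ IsLocalRing.maximalIdeal (MvPowerSeries (Fin n) O ⧸ J) := by
    intro j
    rw [IsLocalRing.mem_maximalIdeal]
    intro h
    have := h.map Φ'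
    rw [hw] at this
    exact (IsLocalRing.mem_maximalIdeal _).1 (hψX j) this
  haveI hCl := isLocalHom_C (O := O) n
  have hmks : Function.Surjective (Ideal.Quotient.mk J) := Ideal.Quotient.mk_surjective
  haveI hmkl : IsLocalHom (Ideal.Quotient.mk J) := isLocalHom_of_surj _ hmks
  obtain ⟨Ψ, hΨl, hΨC, hΨX⟩ := exists_evalMv
    ((Ideal.Quotient.mk J).comp (MvPowerSeries.C : O →+* MvPowerSeries (Fin n) O)) w hwm
  haveI := hΨl
  have hΦΨ : ∀ x, Φ' (Ψ x) = ψ x := by
    intro x
    have h1 : Φ'.comp Ψ = ψ := by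
      refine mv_hom_ext _ _ (fun a => ?_) (fun j => ?_)
      · rw [RingHom.comp_apply, hΨC, RingHom.comp_apply, hΦ'mk, hΦC, hψC]
      · rw [RingHom.comp_apply, hΨX, hw]
    exact RingHom.congr_fun h1 x
  have hg0 : ∀ k, ∃ A : Fin r → MvPowerSeries (Fin r) O, ∑ j, A j * MvPowerSeries.X j = g k := by
    intro k
    refine Ideal.mem_span_range_iff_exists_fun.1
      (Patching.mem_span_X_of_constantCoeff_eq_zero r (g k) ?_)
    have : g k ∈ RingHom.ker ψ := by rw [hker]; exact Ideal.subset_span ⟨k, rfl⟩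
    rw [← hκ, show ψ (g k) = 0 from this, map_zero]
  choose A hA using hg0
  have hbot : RingHom.ker Φ' = ⊥ := by
    refine lift_bot_gen (MvPowerSeries.constantCoeff) (MvPowerSeries.C)
      (fun x => MvPowerSeries.constantCoeff_C x) (fun j => MvPowerSeries.X j)
      (fun j => MvPowerSeries.constantCoeff_X j)
      (fun x hx => Patching.mem_span_X_of_constantCoeff_eq_zero r x hx)
      (fun w hw j => by rw [← coeff_sum_mul_X, hw, map_zero]) πR Ψ (fun x => ?_) (RingHom.ker Φ')
      (Matrix.of A) g (fun k => (hA k).symm) (fun k => ?_) (fun ρ => ?_) (fun x hx => ?_) hI2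
      (det_ne_zero π hfin ψ g hψs hψC hker hκ _ fun k => (hA k).symm)
    · change π (Φ' (Ψ x)) = _
      rw [hΦΨ, hκ]
    · rw [RingHom.mem_ker, hΦΨ]
      have : g k ∈ RingHom.ker ψ := by rw [hker]; exact Ideal.subset_span ⟨k, rfl⟩
      exact this
    · obtain ⟨x, hx⟩ := hψs (Φ' ρ)
      refine ⟨x, ?_⟩
      rw [RingHom.mem_ker, map_sub, hΦΨ, hx, sub_self]
    · refine ⟨1, map_one _, ?_⟩
      rw [RingHom.mem_ker, hΦΨ] at hx
      rw [one_mul, ← hker]
      exact hx
  have h1 : Ideal.Quotient.mk J (z : MvPowerSeries (Fin n) O) ∈ RingHom.ker Φ' := by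
    rw [RingHom.mem_ker, hΦ'mk, hΦcoe, hz]
  rw [hbot, Ideal.mem_bot, Ideal.Quotient.eq_zero_iff_mem] at h1
  exact h1

end CI

theorem exists_unit_of_coe_mem {O : Type} [CommRing O] [IsNoetherianRing O] {n : ℕ}
    (S : SC (Fin n) O) {z : MvPolynomial (Fin n) O}
    (hz : (z : MvPowerSeries (Fin n) O) ∈
      Ideal.span (Set.range fun i => (S.f i : MvPowerSeries (Fin n) O))) :
    ∃ s : MvPolynomial (Fin n) O, MvPolynomial.coeff 0 s = 1 ∧ s * z ∈ S.J := by
  classical
  obtain ⟨c, hc⟩ := Ideal.mem_span_range_iff_exists_fun.1 hz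
  have h1 : ∀ N : ℕ, z - ∑ i, MvPowerSeries.truncTotal N (c i) * S.f i ∈
      MvPolynomial.idealOfVars (Fin n) O ^ N := by
    intro N
    rw [MvPolynomial.mem_pow_idealOfVars_iff']
    intro x hx
    rw [MvPolynomial.coeff_sub, sub_eq_zero, ← MvPolynomial.coeff_coe, ← hc, map_sum,
      MvPolynomial.coeff_sum]
    refine Finset.sum_congr rfl fun i _ => ?_
    rw [MvPowerSeries.coeff_mul, MvPolynomial.coeff_mul]
    refine Finset.sum_congr rfl fun y hy => ?_
    have h2 : y.1 + y.2 = x := Finset.HasAntidiagonal.mem_antidiagonal.1 hy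
    have h3 : Finsupp.degree y.1 < N := by
      have : Finsupp.degree y.1 + Finsupp.degree y.2 = Finsupp.degree x := by rw [← map_add, h2]
      omega
    rw [MvPowerSeries.coeff_truncTotal _ h3, MvPolynomial.coeff_coe]
  have h2 : (Ideal.Quotient.mk S.J z) ∈ (⨅ N : ℕ, MvPolynomial.idealOfVars (Fin n) O ^ N • ⊤ :
      Submodule (MvPolynomial (Fin n) O) (MvPolynomial (Fin n) O ⧸ S.J)) := by
    rw [Submodule.mem_iInf]
    intro N
    obtain ⟨w, hw⟩ : ∃ w, w = z - ∑ i, MvPowerSeries.truncTotal N (c i) * S.f i := ⟨_, rfl⟩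
    have h3 : Ideal.Quotient.mk S.J z = w • (1 : MvPolynomial (Fin n) O ⧸ S.J) := by
      change Ideal.Quotient.mk S.J z = Ideal.Quotient.mk S.J (w • 1)
      rw [smul_eq_mul, mul_one, Ideal.Quotient.eq, hw, sub_sub_cancel]
      exact sum_mem fun i _ => Ideal.mul_mem_left _ _ (S.f_mem i)
    rw [h3]
    exact Submodule.smul_mem_smul (by rw [hw]; exact h1 N) trivial
  obtain ⟨⟨r, hr⟩, hrz⟩ := (Ideal.mem_iInf_smul_pow_eq_bot_iff _ _).1 h2
  refine ⟨1 - r, ?_, ?_⟩
  · rw [MvPolynomial.coeff_sub, MvPolynomial.coeff_zero_one, coeff_zero_of_mem hr, sub_zero]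
  · have h3 : Ideal.Quotient.mk S.J (r * z) = Ideal.Quotient.mk S.J z := hrz
    rw [sub_mul, one_mul, ← neg_mem_iff, neg_sub, ← Ideal.Quotient.eq]
    exact h3

/-- **(N2)** the minimal level -/
theorem n2 : N2St := by
  intro O _ _ _ _ _ T _ _ _ _ _ r ψ g hψs hker π H _ _ _ _ _ _ _ d C hfin
  classical
  haveI : CNL O := ⟨inferInstance, inferInstance, inferInstance, inferInstance⟩
  haveI : CNL T := CNL.of_finite (O := O)
  haveI hψl : IsLocalHom (ψ : MvPowerSeries (Fin r) O →+* T) := isLocalHom_of_surj _ hψs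
  have hψC : ∀ a, (ψ : MvPowerSeries (Fin r) O →+* T) (MvPowerSeries.C a) = algebraMap O T a :=
    fun a => ψ.commutes a
  have hπs : Function.Surjective (π : T →+* O) := fun x => ⟨algebraMap O T x, π.commutes x⟩
  haveI hπl : IsLocalHom (π : T →+* O) := isLocalHom_of_surj _ hπs
  have hcm : ∀ j, π (ψ (MvPowerSeries.X j)) ∈ IsLocalRing.maximalIdeal O := by
    intro j
    have h1 : (MvPowerSeries.X j : MvPowerSeries (Fin r) O) ∈
        IsLocalRing.maximalIdeal (MvPowerSeries (Fin r) O) := by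
      rw [mvps_mem_maximalIdeal, MvPowerSeries.constantCoeff_X]
      exact zero_mem _
    rw [IsLocalRing.mem_maximalIdeal] at h1 ⊢
    intro h2
    apply h1
    have h3 : IsUnit ((π : T →+* O) ((ψ : MvPowerSeries (Fin r) O →+* T) (MvPowerSeries.X j))) := h2
    exact isUnit_of_map_unit (ψ : MvPowerSeries (Fin r) O →+* T) _
      (isUnit_of_map_unit (π : T →+* O) _ h3)
  obtain ⟨ψ', g', hl', hs', hC', hker', hX'⟩ := exists_recentre
    (ψ : MvPowerSeries (Fin r) O →+* T) g hψs hψC hker _ hcm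
  haveI := hl'
  obtain ⟨n, S, a, ha, hsurj, hfa, hD0, hDval, hL⟩ := exists_resolution π hfin
  have hK : ∀ z : MvPolynomial (Fin n) O, MvPolynomial.aeval a z = 0 →
      ∃ s : MvPolynomial (Fin n) O, MvPolynomial.coeff 0 s = 1 ∧ s * z ∈ S.J := fun z hz =>
    exists_unit_of_coe_mem S (mem_span_of_ci π hfin ψ' g' hs' hC' hker' (fun j => by
      rw [hX', map_sub, AlgHom.commutes]
      exact sub_self _) S a ha hsurj hfa hL z hz)
  -- the socle of `T`
  have hsoc : ∀ t : T, (∀ u : T, π u = 0 → u * t = 0) → ∃ c : O,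
      t = c • MvPolynomial.aeval a S.D := by
    intro t ht
    obtain ⟨z, rfl⟩ := hsurj t
    choose s hs hsz using fun j => hK (MvPolynomial.X j * z) (by
      rw [map_mul, MvPolynomial.aeval_X]
      exact ht _ (ha j))
    obtain ⟨w, hw⟩ : ∃ w, w = ∏ j, s j := ⟨_, rfl⟩
    have hw1 : MvPolynomial.coeff 0 w = 1 := by
      have := map_prod (MvPolynomial.constantCoeff (R := O) (σ := Fin n)) s Finset.univ
      simp only [MvPolynomial.constantCoeff_eq] at this
      rw [hw, this]
      exact Finset.prod_eq_one fun j _ => hs j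
    have hwz : ∀ j, MvPolynomial.X j * (w * z) ∈ S.Ja ⊥ := by
      intro j
      rw [hw, ← Finset.mul_prod_erase _ _ (Finset.mem_univ j)]
      have : MvPolynomial.X j * (s j * (∏ x ∈ Finset.univ.erase j, s x) * z) =
        (∏ x ∈ Finset.univ.erase j, s x) * (s j * (MvPolynomial.X j * z)) := by ring
      rw [this]
      exact S.J_le _ (Ideal.mul_mem_left _ _ (hsz j))
    have h1 := S.socle hwz
    have h2 : S.Ja ⊥ = S.J := by
      unfold SC.Ja
      rw [Ideal.map_bot, sup_bot_eq]
    rw [h2] at h1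
    have h3 := S.aeval_J hfa h1
    rw [map_sub, map_mul, map_mul, MvPolynomial.aeval_C, sub_eq_zero] at h3
    have h4 : MvPolynomial.aeval a w * MvPolynomial.aeval a z = MvPolynomial.aeval a z := by
      have h5 := ht (MvPolynomial.aeval a w - 1) (by
        rw [map_sub, pi_D w π ha, hw1, map_one, sub_self])
      rw [sub_mul, one_mul, sub_eq_zero] at h5
      exact h5
    refine ⟨S.τ (w * z), ?_⟩
    rw [← h4, h3, Algebra.smul_def]
  -- the `π`-part of `H`
  obtain ⟨δ, hδ⟩ : ∃ δ, δ = MvPolynomial.aeval a S.D := ⟨_, rfl⟩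
  have hδ1 : ∀ u : T, π u = 0 → ∀ x : H, u • δ • x = 0 := by
    intro u hu x
    rw [← mul_smul, hδ, aeval_mul_D S π ha hsurj hfa hu, zero_smul]
  have hδ2 : π δ = MvPolynomial.coeff 0 S.D := by rw [hδ]; exact pi_D _ π ha
  let b := Module.Free.chooseBasis T H
  have hsurj2 : ∀ j, ∃ h : H, δ • h = C.e j := by
    intro j
    have h1 := (C.mem_span (C.e j)).1 (Submodule.subset_span ⟨j, rfl⟩)
    have h2 : ∀ i, ∃ c : O, b.repr (C.e j) i = c • MvPolynomial.aeval a S.D := by
      intro i
      refine hsoc _ fun u hu => ?_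
      have h3 := congrArg (fun x => b.repr x i) (h1 u hu)
      simpa using h3
    choose c hc using h2
    haveI : Module.Finite T H := Module.Finite.of_restrictScalars_finite O T H
    haveI : Fintype (Module.Free.ChooseBasisIndex T H) := inferInstance
    refine ⟨∑ i, c i • b i, ?_⟩
    rw [Finset.smul_sum, ← b.sum_repr (C.e j)]
    refine Finset.sum_congr rfl fun i _ => ?_
    rw [hc, ← hδ, smul_comm δ (c i) (b i), smul_assoc]
  rw [C.val_eq hδ1 (by rw [hδ2]; exact hD0) hsurj2, hδ2, hDval]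

end Fermat.Agent.RT
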