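import Mathlib

/-!
# A special complete intersection

For polynomials `f i = X i ^ 3 + h i` with `h i` of total degree `≤ 2` the ring
`O[X]/(f)` has an explicit nondegenerate trace form.
-/

set_option autoImplicit false

noncomputable section

namespace Fermat.Agent.NumC

open MvPolynomial

variable {ι : Type*} {O : Type*} [CommRing O]

/-- polynomials of total degree `< m` -/
def Fl (ι O : Type*) [CommRing O] (m : ℕ) : Submodule O (MvPolynomial ι O) where
  carrier := {p | ∀ b : ι →₀ ℕ, m ≤ b.degree → coeff b p = 0}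
  add_mem' {p q} hp hq b hb := by rw [coeff_add, hp b hb, hq b hb, add_zero]
  zero_mem' b _ := coeff_zero b
  smul_mem' c p hp b hb := by rw [coeff_smul, hp b hb, smul_zero]

theorem mem_Fl {m : ℕ} {p : MvPolynomial ι O} :
    p ∈ Fl ι O m ↔ ∀ b : ι →₀ ℕ, m ≤ b.degree → coeff b p = 0 := Iff.rfl

theorem Fl_mono {m n : ℕ} (h : m ≤ n) : Fl ι O m ≤ Fl ι O n := fun _ hp b hb => hp b (h.trans hb)

theorem Fl_zero {p : MvPolynomial ι O} (hp : p ∈ Fl ι O 0) : p = 0 := by
  ext b
  rw [hp b (Nat.zero_le _), coeff_zero]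

theorem exists_Fl (p : MvPolynomial ι O) : ∃ m, p ∈ Fl ι O m := by
  refine ⟨p.totalDegree + 1, fun b hb => ?_⟩
  by_contra h
  have := le_totalDegree (mem_support_iff.2 h)
  have h2 : b.degree = b.sum fun _ e => e := rfl
  omega

theorem Fl_mul {m n : ℕ} {p q : MvPolynomial ι O} (hp : p ∈ Fl ι O m) (hq : q ∈ Fl ι O (n + 1)) :
    p * q ∈ Fl ι O (m + n) := by
  classical
  intro b hb
  rw [coeff_mul]
  refine Finset.sum_eq_zero fun x hx => ?_
  have h1 : x.1 + x.2 = b := Finset.HasAntidiagonal.mem_antidiagonal.1 hx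
  have h2 : x.1.degree + x.2.degree = b.degree := by rw [← map_add, h1]
  rcases lt_or_ge x.1.degree m with h | h
  · rw [hq x.2 (by omega), mul_zero]
  · rw [hp x.1 h, zero_mul]

theorem monomial_mem_Fl {b : ι →₀ ℕ} {m : ℕ} (hb : b.degree < m) (c : O) :
    monomial b c ∈ Fl ι O m := by
  classical
  intro b' hb'
  rw [coeff_monomial, if_neg]
  rintro rfl
  omega

/-- `p` is the monomial `X ^ b` up to lower degree -/
def Good (p : MvPolynomial ι O) (b : ι →₀ ℕ) : Prop := p - monomial b 1 ∈ Fl ι O b.degree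

theorem Good.mem {p : MvPolynomial ι O} {b : ι →₀ ℕ} (h : Good p b) :
    p ∈ Fl ι O (b.degree + 1) := by
  have : p = (p - monomial b 1) + monomial b 1 := by ring
  rw [this]
  exact add_mem (Fl_mono (Nat.le_succ _) h) (monomial_mem_Fl (Nat.lt_succ_self _) _)

theorem Good.mul {p q : MvPolynomial ι O} {b c : ι →₀ ℕ} (hp : Good p b) (hq : Good q c) :
    Good (p * q) (b + c) := by
  unfold Good
  have e : p * q - monomial (b + c) 1 = (p - monomial b 1) * q +
      (q - monomial c 1) * monomial b 1 := by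
    have : (monomial (b + c) 1 : MvPolynomial ι O) = monomial b 1 * monomial c 1 := by
      rw [monomial_mul, one_mul]
    rw [this]; ring
  rw [e, map_add]
  refine add_mem (Fl_mul hp hq.mem) ?_
  rw [add_comm]
  exact Fl_mul hq (monomial_mem_Fl (Nat.lt_succ_self _) _)

theorem Good.one : Good (1 : MvPolynomial ι O) 0 := by
  unfold Good
  have : (monomial 0 1 : MvPolynomial ι O) = 1 := rfl
  rw [this, sub_self]
  exact zero_mem _

theorem Good.pow {p : MvPolynomial ι O} {b : ι →₀ ℕ} (hp : Good p b) (k : ℕ) :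
    Good (p ^ k) (k • b) := by
  induction k with
  | zero => rw [pow_zero, zero_smul]; exact Good.one
  | succ k ih => rw [pow_succ, succ_nsmul]; exact ih.mul hp

theorem Good.prod {s : Finset ι} {p : ι → MvPolynomial ι O} {b : ι → ι →₀ ℕ}
    (h : ∀ i ∈ s, Good (p i) (b i)) : Good (∏ i ∈ s, p i) (∑ i ∈ s, b i) := by
  classical
  induction s using Finset.induction_on with
  | empty => rw [Finset.prod_empty, Finset.sum_empty]; exact Good.one
  | insert i s hi ih =>
    rw [Finset.prod_insert hi, Finset.sum_insert hi]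
    exact (h i (Finset.mem_insert_self _ _)).mul (ih fun j hj => h j (Finset.mem_insert_of_mem hj))

theorem Good.var (i : ι) : Good (X i : MvPolynomial ι O) (Finsupp.single i 1) := by
  unfold Good
  have : (monomial (Finsupp.single i 1) 1 : MvPolynomial ι O) = X i := rfl
  rw [this, sub_self]
  exact zero_mem _

theorem Good.cube {i : ι} {h : MvPolynomial ι O} (hh : h ∈ Fl ι O 3) :
    Good (MvPolynomial.X i ^ 3 + h) (Finsupp.single i 3) := by
  unfold Good
  have : (monomial (Finsupp.single i 3) 1 : MvPolynomial ι O) = MvPolynomial.X i ^ 3 := by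
    rw [X_pow_eq_monomial]
  rw [this, add_sub_cancel_left, Finsupp.degree_single]
  exact hh

variable [Fintype ι]

/-- the linear map `X ^ b ↦ f ^ (b / 3) X ^ (b % 3)` -/
def Lm (f : ι → MvPolynomial ι O) : MvPolynomial ι O →ₗ[O] MvPolynomial ι O :=
  (basisMonomials ι O).constr O fun b => ∏ i, (f i ^ (b i / 3) * X i ^ (b i % 3))

theorem Lm_monomial (f : ι → MvPolynomial ι O) (b : ι →₀ ℕ) :
    Lm f (monomial b 1) = ∏ i, (f i ^ (b i / 3) * X i ^ (b i % 3)) := by
  have := (basisMonomials ι O).constr_basis O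
    (fun b : ι →₀ ℕ => ∏ i, (f i ^ (b i / 3) * X i ^ (b i % 3))) b
  rwa [coe_basisMonomials] at this

omit [Fintype ι] in
theorem monomial_eq_smul (b : ι →₀ ℕ) (c : O) :
    (monomial b c : MvPolynomial ι O) = c • monomial b 1 := by
  rw [smul_monomial, smul_eq_mul, mul_one]

variable {f : ι → MvPolynomial ι O}

theorem Lm_good (hf : ∀ i, Good (f i) (Finsupp.single i 3)) (b : ι →₀ ℕ) :
    Good (Lm f (monomial b 1)) b := by
  have e : b = ∑ i, ((b i / 3) • Finsupp.single i 3 + (b i % 3) • Finsupp.single i 1) := by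
    classical
    ext j
    rw [Finsupp.finsetSum_apply, Finset.sum_eq_single j]
    · simp only [Finsupp.add_apply, Finsupp.smul_apply, Finsupp.single_eq_same, smul_eq_mul]
      omega
    · intro i _ hij
      simp [Finsupp.single_eq_of_ne hij.symm]
    · intro h
      exact absurd (Finset.mem_univ j) h
  rw [Lm_monomial]
  conv_rhs => rw [e]
  exact Good.prod fun i _ => ((hf i).pow _).mul ((Good.var i).pow _)

theorem Lm_sub_mem (hf : ∀ i, Good (f i) (Finsupp.single i 3)) {m : ℕ} {p : MvPolynomial ι O}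
    (hp : p ∈ Fl ι O (m + 1)) : Lm f p - p ∈ Fl ι O m := by
  classical
  have e : Lm f p - p = ∑ b ∈ p.support, coeff b p • (Lm f (monomial b 1) - monomial b 1) := by
    conv_lhs => rw [p.as_sum]
    rw [map_sum, ← Finset.sum_sub_distrib]
    refine Finset.sum_congr rfl fun b _ => ?_
    rw [monomial_eq_smul, map_smul, smul_sub]
  rw [e]
  refine sum_mem fun b hb => Submodule.smul_mem _ _ (Fl_mono ?_ (Lm_good hf b))
  by_contra h
  exact (mem_support_iff.1 hb) (hp b (by omega))

theorem Lm_mem_iff (hf : ∀ i, Good (f i) (Finsupp.single i 3)) {m : ℕ} {p : MvPolynomial ι O}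
    (h : Lm f p ∈ Fl ι O m) : p ∈ Fl ι O m := by
  obtain ⟨M, hM⟩ := exists_Fl p
  induction M with
  | zero => exact Fl_mono (Nat.zero_le _) hM
  | succ M ih =>
    rcases le_or_gt (M + 1) m with h1 | h1
    · exact Fl_mono h1 hM
    · apply ih
      have h2 := Lm_sub_mem hf hM
      have : p = Lm f p - (Lm f p - p) := by ring
      rw [this]
      exact sub_mem (Fl_mono (by omega) h) h2

theorem Lm_injective (hf : ∀ i, Good (f i) (Finsupp.single i 3)) :
    Function.Injective (Lm f) := by
  rw [injective_iff_map_eq_zero]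
  intro p hp
  exact Fl_zero (Lm_mem_iff hf (by rw [hp]; exact zero_mem _))

theorem Lm_surjective (hf : ∀ i, Good (f i) (Finsupp.single i 3)) :
    Function.Surjective (Lm f) := by
  intro q
  obtain ⟨m, hm⟩ := exists_Fl q
  induction m generalizing q with
  | zero => exact ⟨0, by rw [Fl_zero hm, map_zero]⟩
  | succ m ih =>
    obtain ⟨p, hp⟩ := ih (Lm f q - q) (Lm_sub_mem hf hm)
    exact ⟨q - p, by rw [map_sub, hp]; ring⟩

/-- multiplication by `f i` -/
theorem f_mul_Lm (i : ι) (p : MvPolynomial ι O) : f i * Lm f p = Lm f (X i ^ 3 * p) := by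
  classical
  induction p using MvPolynomial.induction_on' with
  | monomial b c =>
    rw [monomial_eq_smul b c, map_smul, mul_smul_comm, mul_smul_comm, map_smul]
    congr 1
    rw [X_pow_eq_monomial, monomial_mul, one_mul, Lm_monomial, Lm_monomial]
    rw [← Finset.mul_prod_erase Finset.univ _ (Finset.mem_univ i),
      ← Finset.mul_prod_erase Finset.univ _ (Finset.mem_univ i), ← mul_assoc]
    congr 1
    · rw [Finsupp.add_apply, Finsupp.single_eq_same, Nat.add_mod_left,
        show (3 + b i) / 3 = b i / 3 + 1 by omega, pow_succ]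
      ring
    · refine Finset.prod_congr rfl fun j hj => ?_
      have hji : j ≠ i := Finset.ne_of_mem_erase hj
      rw [Finsupp.add_apply, Finsupp.single_eq_of_ne hji, zero_add]
  | add p q hp hq => rw [map_add, mul_add, mul_add, map_add, hp, hq]

variable (f) in
/-- the ideal generated by the `f i` -/
def Jf : Ideal (MvPolynomial ι O) := Ideal.span (Set.range f)

theorem Lm_monomial_mem {b : ι →₀ ℕ} {i : ι} (hb : 3 ≤ b i) : Lm f (monomial b 1) ∈ Jf f := by
  have e : (monomial b 1 : MvPolynomial ι O) =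
      X i ^ 3 * monomial (b - Finsupp.single i 3) 1 := by
    rw [X_pow_eq_monomial, monomial_mul, one_mul]
    have h : b = Finsupp.single i 3 + (b - Finsupp.single i 3) := by
      classical
      ext j
      simp only [Finsupp.add_apply, Finsupp.tsub_apply]
      by_cases hj : j = i
      · subst hj; simp only [Finsupp.single_eq_same]; omega
      · simp [Finsupp.single_eq_of_ne hj]
    rw [← h]
  rw [e, ← f_mul_Lm]
  exact Ideal.mul_mem_right _ _ (Ideal.subset_span ⟨i, rfl⟩)

theorem Lm_monomial_of_le {b : ι →₀ ℕ} (hb : ∀ i, b i ≤ 2) :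
    Lm f (monomial b 1) = monomial b 1 := by
  rw [Lm_monomial, monomial_eq, map_one, one_mul, Finsupp.prod_fintype _ _ fun i => pow_zero _]
  refine Finset.prod_congr rfl fun i _ => ?_
  have := hb i
  rw [show b i / 3 = 0 by omega, show b i % 3 = b i by omega, pow_zero, one_mul]

/-- the normal form modulo the `f i` -/
theorem exists_nf (hf : ∀ i, Good (f i) (Finsupp.single i 3)) (z : MvPolynomial ι O) :
    ∃ w : MvPolynomial ι O, (∀ b ∈ w.support, ∀ i, b i ≤ 2) ∧ z - w ∈ Jf f := by
  classical
  obtain ⟨p, rfl⟩ := Lm_surjective hf z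
  refine ⟨∑ b ∈ p.support with ∀ i, b i ≤ 2, monomial b (coeff b p), fun b hb => ?_, ?_⟩
  · obtain ⟨c, hc, hbc⟩ := Finset.mem_biUnion.1 (support_sum hb)
    have h1 := support_monomial_subset hbc
    rw [Finset.mem_singleton] at h1
    rw [h1]
    exact (Finset.mem_filter.1 hc).2
  · have e1 : Lm f p = (∑ b ∈ p.support with ∀ i, b i ≤ 2, monomial b (coeff b p)) +
        ∑ b ∈ p.support with ¬ ∀ i, b i ≤ 2, coeff b p • Lm f (monomial b 1) := by
      have e2 : Lm f p = ∑ b ∈ p.support, coeff b p • Lm f (monomial b 1) := by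
        conv_lhs => rw [p.as_sum]
        rw [map_sum]
        refine Finset.sum_congr rfl fun b _ => ?_
        rw [monomial_eq_smul, map_smul]
      rw [e2, ← Finset.sum_filter_add_sum_filter_not p.support (fun b => ∀ i, b i ≤ 2)]
      congr 1
      refine Finset.sum_congr rfl fun b hb => ?_
      rw [Lm_monomial_of_le (Finset.mem_filter.1 hb).2, ← monomial_eq_smul]
    rw [e1, add_sub_cancel_left]
    refine sum_mem fun b hb => ?_
    have h := (Finset.mem_filter.1 hb).2
    push Not at h
    obtain ⟨i, hi⟩ := h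
    rw [smul_eq_C_mul]
    exact Ideal.mul_mem_left _ _ (Lm_monomial_mem (i := i) (by omega))

/-- the top exponent -/
def topE (ι : Type*) [Fintype ι] : ι →₀ ℕ := Finsupp.equivFunOnFinite.symm fun _ => 2

theorem topE_apply (i : ι) : topE ι i = 2 := rfl

theorem degree_topE : (topE ι).degree = 2 * Fintype.card ι := by
  rw [Finsupp.degree_eq_sum]
  simp [topE_apply, mul_comm]

/-- the trace form -/
def tau (hf : ∀ i, Good (f i) (Finsupp.single i 3)) : MvPolynomial ι O →ₗ[O] O :=
  (lcoeff O (topE ι)).comp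
    (LinearEquiv.ofBijective (Lm f) ⟨Lm_injective hf, Lm_surjective hf⟩).symm.toLinearMap

variable (hf : ∀ i, Good (f i) (Finsupp.single i 3))

theorem tau_Lm (p : MvPolynomial ι O) : tau hf (Lm f p) = coeff (topE ι) p := by
  unfold tau
  rw [LinearMap.comp_apply]
  have : (LinearEquiv.ofBijective (Lm f) ⟨Lm_injective hf, Lm_surjective hf⟩).symm (Lm f p) = p :=
    (LinearEquiv.ofBijective (Lm f) ⟨Lm_injective hf, Lm_surjective hf⟩).symm_apply_apply p
  exact congrArg (coeff (topE ι)) this

theorem tau_mul (i : ι) (g : MvPolynomial ι O) : tau hf (f i * g) = 0 := by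
  classical
  obtain ⟨p, rfl⟩ := Lm_surjective hf g
  rw [f_mul_Lm, tau_Lm, X_pow_eq_monomial, coeff_monomial_mul', if_neg]
  intro h
  have := h i
  rw [Finsupp.single_eq_same, topE_apply] at this
  omega

theorem tau_of_mem {g : MvPolynomial ι O} (hg : g ∈ Jf f) : tau hf g = 0 := by
  obtain ⟨c, rfl⟩ := Ideal.mem_span_range_iff_exists_fun.1 hg
  rw [map_sum]
  refine Finset.sum_eq_zero fun i _ => ?_
  rw [mul_comm, tau_mul]

theorem tau_of_Fl {g : MvPolynomial ι O} (hg : g ∈ Fl ι O (2 * Fintype.card ι + 1)) :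
    tau hf g = coeff (topE ι) g := by
  obtain ⟨p, rfl⟩ := Lm_surjective hf g
  rw [tau_Lm]
  have h1 := Lm_sub_mem hf (Lm_mem_iff hf hg)
  have h2 := h1 (topE ι) (by rw [degree_topE])
  rw [coeff_sub, sub_eq_zero] at h2
  exact h2.symm

theorem tau_mem_of_coeff {𝔞 : Ideal O} {p : MvPolynomial ι O} (hp : ∀ b, coeff b p ∈ 𝔞) :
    tau hf p ∈ 𝔞 := by
  rw [p.as_sum, map_sum]
  refine sum_mem fun b _ => ?_
  rw [monomial_eq_smul, map_smul, smul_eq_mul]
  exact Ideal.mul_mem_right _ _ (hp b)

theorem tau_nondeg (𝔞 : Ideal O) (z : MvPolynomial ι O) (h : ∀ b, tau hf (z * b) ∈ 𝔞) :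
    ∃ w : MvPolynomial ι O, (∀ b, coeff b w ∈ 𝔞) ∧ z - w ∈ Jf f := by
  classical
  obtain ⟨w, hw, hzw⟩ := exists_nf hf z
  refine ⟨w, ?_, hzw⟩
  have h' : ∀ b, tau hf (w * b) ∈ 𝔞 := fun b => by
    have h1 := tau_of_mem hf (Ideal.mul_mem_right b _ hzw)
    rw [sub_mul, map_sub, sub_eq_zero] at h1
    rw [← h1]
    exact h b
  obtain ⟨M, hM⟩ := exists_Fl w
  have key : ∀ k : ℕ, ∀ b : ι →₀ ℕ, M ≤ b.degree + k → coeff b w ∈ 𝔞 := by
    intro k
    induction k with
    | zero => intro b hb; rw [hM b (by simpa using hb)]; exact zero_mem _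
    | succ k ih =>
      intro b hb
      by_cases hbs : b ∈ w.support
      · have hb2 := hw b hbs
        obtain ⟨c, hc⟩ : ∃ c : ι →₀ ℕ, b + c = topE ι := ⟨topE ι - b, by
          ext i
          rw [Finsupp.add_apply, Finsupp.tsub_apply, topE_apply]
          have := hb2 i
          omega⟩
        have hdeg : b.degree + c.degree = 2 * Fintype.card ι := by
          rw [← map_add, hc, degree_topE]
        -- splitting
        obtain ⟨w1, hw1⟩ : ∃ w1, w1 = ∑ x ∈ w.support with b.degree < x.degree,
          monomial x (coeff x w) := ⟨_, rfl⟩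
        obtain ⟨w2, hw2⟩ : ∃ w2, w2 = ∑ x ∈ w.support with ¬ b.degree < x.degree,
          monomial x (coeff x w) := ⟨_, rfl⟩
        have hsum : w = w1 + w2 := by
          rw [hw1, hw2, Finset.sum_filter_add_sum_filter_not, ← w.as_sum]
        have hw1c : ∀ x, coeff x (w1 * monomial c 1) ∈ 𝔞 := by
          intro x
          rw [hw1, Finset.sum_mul, coeff_sum]
          refine sum_mem fun y hy => ?_
          rw [monomial_mul, mul_one, coeff_monomial]
          split_ifs
          · refine ih y ?_
            have := (Finset.mem_filter.1 hy).2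
            omega
          · exact zero_mem _
        have hw2F : w2 ∈ Fl ι O (b.degree + 1) := by
          rw [hw2]
          refine sum_mem fun y hy => monomial_mem_Fl ?_ _
          have := (Finset.mem_filter.1 hy).2
          omega
        have hw2F' : w2 * monomial c 1 ∈ Fl ι O (2 * Fintype.card ι + 1) := by
          have := Fl_mul hw2F (monomial_mem_Fl (Nat.lt_succ_self c.degree) (1 : O))
          rwa [show b.degree + 1 + c.degree = 2 * Fintype.card ι + 1 by omega] at this
        have h1 := h' (monomial c 1)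
        rw [hsum, add_mul, map_add, tau_of_Fl hf hw2F', ← hc, coeff_mul_monomial, mul_one] at h1
        have h2 := (Ideal.add_mem_iff_right _ (tau_mem_of_coeff hf hw1c)).1 h1
        have h3 : coeff b w1 = 0 := by
          rw [hw1, coeff_sum]
          refine Finset.sum_eq_zero fun y hy => ?_
          rw [coeff_monomial, if_neg]
          rintro rfl
          exact lt_irrefl _ (Finset.mem_filter.1 hy).2
        rw [hsum, coeff_add, h3, zero_add]
        exact h2
      · rw [notMem_support_iff.1 hbs]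
        exact zero_mem _
  exact fun b => key M b (Nat.le_add_left _ _)

end Fermat.Agent.NumC
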