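import Fermat.Agent.NumC.Poly

/-!
# A special complete intersection, II: the socle generator
-/

set_option autoImplicit false

noncomputable section

namespace Fermat.Agent.NumC

open MvPolynomial

variable {ι : Type*} {O : Type*} [CommRing O]

theorem X_mem_Fl (i : ι) : (X i : MvPolynomial ι O) ∈ Fl ι O 2 := by
  have := monomial_mem_Fl (ι := ι) (O := O) (b := Finsupp.single i 1) (m := 2)
    (by rw [Finsupp.degree_single]; norm_num) 1
  exact this

theorem sub_C_mem (b : MvPolynomial ι O) :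
    b - C (coeff 0 b) ∈ Ideal.span (Set.range (X : ι → MvPolynomial ι O)) := by
  classical
  rw [← Set.image_univ, mem_ideal_span_X_image]
  intro m hm
  by_contra h
  push Not at h
  have h0 : m = 0 := by
    ext i
    exact h i (Set.mem_univ i)
  rw [h0] at hm
  apply mem_support_iff.1 hm
  rw [coeff_sub, coeff_C, if_pos rfl, sub_self]

variable [Fintype ι] [DecidableEq ι]

/-- special complete intersections -/
structure SC (ι O : Type*) [CommRing O] where
  /-- the lower order part -/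
  B : Matrix ι ι (MvPolynomial ι O)
  hB : ∀ i j, B i j ∈ Fl ι O 2

namespace SC

variable (S : SC ι O)

/-- the matrix -/
def A : Matrix ι ι (MvPolynomial ι O) := Matrix.diagonal (fun i => X i ^ 2) + S.B

/-- the equations -/
def f (i : ι) : MvPolynomial ι O := ∑ j, S.A i j * X j

/-- the socle generator -/
def D : MvPolynomial ι O := S.A.det

theorem A_mem (i j : ι) : S.A i j ∈ Fl ι O 3 := by
  unfold A
  rw [Matrix.add_apply]
  refine add_mem ?_ (Fl_mono (by norm_num) (S.hB i j))
  rw [Matrix.diagonal_apply]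
  split_ifs
  · rw [X_pow_eq_monomial]
    exact monomial_mem_Fl (by rw [Finsupp.degree_single]; norm_num) _
  · exact zero_mem _

theorem A_mem' {i j : ι} (hij : i ≠ j) : S.A i j ∈ Fl ι O 2 := by
  unfold A
  rw [Matrix.add_apply, Matrix.diagonal_apply_ne _ hij, zero_add]
  exact S.hB i j

theorem A_good (i : ι) : Good (S.A i i) (Finsupp.single i 2) := by
  unfold Good A
  rw [Matrix.add_apply, Matrix.diagonal_apply_eq, ← X_pow_eq_monomial, add_sub_cancel_left,
    Finsupp.degree_single]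
  exact S.hB i i

theorem f_good (i : ι) : Good (S.f i) (Finsupp.single i 3) := by
  have e : S.f i = X i ^ 3 + ∑ j, S.B i j * X j := by
    unfold f A
    simp only [Matrix.add_apply, add_mul, Finset.sum_add_distrib]
    congr 1
    rw [Finset.sum_eq_single i]
    · rw [Matrix.diagonal_apply_eq]; ring
    · intro j _ hj
      rw [Matrix.diagonal_apply_ne _ hj.symm, zero_mul]
    · intro h
      exact absurd (Finset.mem_univ i) h
  rw [e]
  refine Good.cube (sum_mem fun j _ => ?_)
  exact Fl_mul (m := 2) (n := 1) (S.hB i j) (X_mem_Fl j)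

omit [DecidableEq ι] in
theorem prod_mem_Fl {s : Finset ι} {p : ι → MvPolynomial ι O} (h : ∀ i ∈ s, p i ∈ Fl ι O 3) :
    ∏ i ∈ s, p i ∈ Fl ι O (2 * s.card + 1) := by
  classical
  induction s using Finset.induction_on with
  | empty =>
    rw [Finset.prod_empty, Finset.card_empty]
    exact monomial_mem_Fl (b := 0) (by simp) 1
  | insert i s hi ih =>
    rw [Finset.prod_insert hi, Finset.card_insert_of_notMem hi]
    have := Fl_mul (m := 3) (n := 2 * s.card) (h i (Finset.mem_insert_self _ _))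
      (ih fun j hj => h j (Finset.mem_insert_of_mem hj))
    rwa [show 3 + 2 * s.card = 2 * (s.card + 1) + 1 by ring] at this

theorem D_good : Good S.D (topE ι) := by
  unfold D
  rw [Matrix.det_apply', ← Finset.add_sum_erase _ _ (Finset.mem_univ (1 : Equiv.Perm ι))]
  have h1 : Good (∏ i, S.A i i) (topE ι) := by
    have : topE ι = ∑ i, Finsupp.single i 2 := by
      ext j
      rw [Finsupp.finsetSum_apply, Finset.sum_eq_single j]
      · rw [Finsupp.single_eq_same, topE_apply]
      · intro i _ hij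
        rw [Finsupp.single_eq_of_ne hij.symm]
      · intro h
        exact absurd (Finset.mem_univ j) h
    rw [this]
    exact Good.prod fun i _ => S.A_good i
  have h2 : ∑ σ ∈ Finset.univ.erase (1 : Equiv.Perm ι),
      ((Equiv.Perm.sign σ : ℤ) : MvPolynomial ι O) * ∏ i, S.A (σ i) i ∈
        Fl ι O (2 * Fintype.card ι) := by
    refine sum_mem fun σ hσ => ?_
    have hσ1 : σ ≠ 1 := Finset.ne_of_mem_erase hσ
    obtain ⟨i, hi⟩ : ∃ i, σ i ≠ i := by
      by_contra h
      push Not at h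
      exact hσ1 (Equiv.ext h)
    have h3 : ∏ i, S.A (σ i) i ∈ Fl ι O (2 * Fintype.card ι) := by
      rw [← Finset.mul_prod_erase _ _ (Finset.mem_univ i)]
      have := Fl_mul (S.A_mem' hi) (prod_mem_Fl (s := Finset.univ.erase i)
        (p := fun j => S.A (σ j) j) fun j _ => S.A_mem _ _)
      rw [Finset.card_erase_of_mem (Finset.mem_univ i), Finset.card_univ] at this
      have hc : 0 < Fintype.card ι := Fintype.card_pos_iff.2 ⟨i⟩
      rwa [show 2 + 2 * (Fintype.card ι - 1) = 2 * Fintype.card ι by omega] at this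
    rw [← zsmul_eq_mul]
    exact zsmul_mem h3 _
  unfold Good at h1 ⊢
  rw [degree_topE] at h1 ⊢
  have e : ((Equiv.Perm.sign (1 : Equiv.Perm ι) : ℤ) : MvPolynomial ι O) *
      ∏ i, S.A ((1 : Equiv.Perm ι) i) i = ∏ i, S.A i i := by simp
  rw [e, add_sub_right_comm]
  exact add_mem h1 h2

/-- the trace form -/
def τ : MvPolynomial ι O →ₗ[O] O := tau S.f_good

theorem τ_D : S.τ S.D = 1 := by
  unfold τ
  rw [tau_of_Fl _ (by
    have := S.D_good.mem
    rwa [degree_topE] at this)]
  have := S.D_good (topE ι) le_rfl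
  rw [coeff_sub, coeff_monomial, if_pos rfl, sub_eq_zero] at this
  exact this

/-- the ideal -/
def J : Ideal (MvPolynomial ι O) := Jf S.f

theorem f_mem (i : ι) : S.f i ∈ S.J := Ideal.subset_span ⟨i, rfl⟩

theorem X_mul_D (j : ι) : X j * S.D ∈ S.J := by
  have h : S.A.adjugate.mulVec S.f = S.D • (X : ι → MvPolynomial ι O) := by
    have : S.f = S.A.mulVec (X : ι → MvPolynomial ι O) := rfl
    rw [this, Matrix.mulVec_mulVec, Matrix.adjugate_mul, Matrix.smul_mulVec, Matrix.one_mulVec]
    rfl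
  have h2 := congrFun h j
  rw [Pi.smul_apply, smul_eq_mul, mul_comm] at h2
  rw [← h2]
  exact sum_mem fun i _ => Ideal.mul_mem_left _ _ (S.f_mem i)

/-- the ideal generated by the equations and an ideal of constants -/
def Ja (𝔞 : Ideal O) : Ideal (MvPolynomial ι O) := S.J ⊔ 𝔞.map C

theorem J_le (𝔞 : Ideal O) : S.J ≤ S.Ja 𝔞 := le_sup_left

theorem τ_mem {𝔞 : Ideal O} {z : MvPolynomial ι O} (h : z ∈ S.Ja 𝔞) : S.τ z ∈ 𝔞 := by
  obtain ⟨x, hx, y, hy, rfl⟩ := Submodule.mem_sup.1 h
  unfold τ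
  rw [map_add, tau_of_mem _ hx, zero_add]
  exact tau_mem_of_coeff _ (mem_map_C_iff.1 hy)

theorem mem_Ja {𝔞 : Ideal O} {z : MvPolynomial ι O} (h : ∀ b, S.τ (z * b) ∈ 𝔞) :
    z ∈ S.Ja 𝔞 := by
  obtain ⟨w, hw, hzw⟩ := tau_nondeg S.f_good 𝔞 z h
  have : z = (z - w) + w := by ring
  rw [this]
  exact add_mem (S.J_le 𝔞 hzw) (Ideal.mem_sup_right (mem_map_C_iff.2 hw))

/-- **the socle** -/
theorem socle {𝔞 : Ideal O} {z : MvPolynomial ι O} (h : ∀ j, X j * z ∈ S.Ja 𝔞) :
    z - C (S.τ z) * S.D ∈ S.Ja 𝔞 := by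
  apply S.mem_Ja
  intro b
  obtain ⟨z', hz'⟩ : ∃ z', z' = z - C (S.τ z) * S.D := ⟨_, rfl⟩
  rw [← hz']
  have h0 : S.τ z' = 0 := by
    rw [hz', map_sub, ← smul_eq_C_mul, map_smul, S.τ_D, smul_eq_mul, mul_one, sub_self]
  have h1 : ∀ j, X j * z' ∈ S.Ja 𝔞 := by
    intro j
    rw [hz', mul_sub, mul_left_comm]
    exact sub_mem (h j) (Ideal.mul_mem_left _ _ (S.J_le 𝔞 (S.X_mul_D j)))
  have h2 : z' * (b - C (coeff 0 b)) ∈ S.Ja 𝔞 := by
    have h3 := sub_C_mem b
    obtain ⟨c, hc⟩ := Ideal.mem_span_range_iff_exists_fun.1 h3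
    rw [← hc, Finset.mul_sum]
    refine sum_mem fun j _ => ?_
    rw [mul_left_comm, mul_comm z']
    exact Ideal.mul_mem_left _ _ (h1 j)
  have e : z' * b = z' * (b - C (coeff 0 b)) + coeff 0 b • z' := by
    rw [smul_eq_C_mul]; ring
  rw [e, map_add, map_smul, h0, smul_zero, add_zero]
  exact S.τ_mem h2

end SC

end Fermat.Agent.NumC
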